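import Fermat.Agent.S53.Problem
import Fermat.Agent.S53_helper35.MatDict
import Fermat.Agent.S53_helper35.MatDict2
import Fermat.Agent.S53_helper35.Wrappers

set_option autoImplicit false
set_option linter.unusedSectionVars false

/-!
# S53 task I-res: the residual representation in matrix form
-/

namespace Fermat.Agent.S53

open IsLocalRing GaloisRep

noncomputable section

section Residual

variable {k : Type} [Field k]

/-- A matrix form of a residual representation (obtained by choosing a basis). -/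
def rbarOf (ρbar : ResidualGaloisRep k) : GQ →* M2 k :=
  (MonoidHomClass.toMonoidHom (LinearMap.toMatrixAlgEquiv
    (Module.finBasisOfFinrankEq k ρbar.V ρbar.finrank_eq))).comp ρbar.ρ

/-- `rbarOf` is the `toMatRes` of the matrix dictionary in the standard basis. -/
theorem rbarOf_eq_toMatRes (ρbar : ResidualGaloisRep k) :
    rbarOf ρbar = S53_helper35.toMatRes ρbar (S53_helper35.stdBasisRes ρbar) := rfl

/-- `rbarOf ρbar` is trivial on an open subgroup. -/
theorem resCont_rbarOf (ρbar : ResidualGaloisRep k) : S53_helper35.ResCont (rbarOf ρbar) :=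
  S53_helper35.resCont_toMatRes ρbar (S53_helper35.stdBasisRes ρbar)

/-- D5a (Burnside in matrix form). -/
theorem span_range_rbarOf (ρbar : ResidualGaloisRep k) (habs : ρbar.IsAbsolutelyIrreducible) :
    Submodule.span k (Set.range (rbarOf ρbar)) = ⊤ :=
  S53_helper35.span_range_toMatRes_eq_top ρbar habs (S53_helper35.stdBasisRes ρbar)

/-- D5c. `rbarOf ρbar` factors through a finite quotient, hence is continuous. -/
theorem cont_rbarOf (ρbar : ResidualGaloisRep k) : Cont (rbarOf ρbar) :=
  S53_helper35.matCont_of_eq_one (resCont_rbarOf ρbar)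

/-- D5d. -/
theorem ofResidualGaloisRep_isEquiv_toAdic (ρbar : ResidualGaloisRep k) :
    (GaloisRepAdic.ofResidualGaloisRep ρbar).IsEquiv (toAdic (rbarOf ρbar) (cont_rbarOf ρbar)) := by
  have e := S53_helper35.equivOfMatResToMatRes ρbar (S53_helper35.stdBasisRes ρbar)
  exact ⟨{ toLinearEquiv := e.toLinearEquiv, map_apply := e.map_apply }⟩

variable {A : Type} [CommRing A] [IsLocalRing A]

/-- D5b. The residual condition in matrix form. -/
theorem residual_toAdic_isEquiv_iff (ρbar : ResidualGaloisRep k) (ι : k →+* ResidueField A)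
    (r : GQ →* M2 A) (hr : Cont r) :
    (toAdic r hr).residual.IsEquiv (ρbar.baseChangeAlong ι) ↔
      ∃ N : (M2 (ResidueField A))ˣ, ∀ σ, (r σ).map (residue A) =
        (N : M2 _) * (rbarOf ρbar σ).map ι * ((N⁻¹ : (M2 _)ˣ) : M2 _) := by
  have h1 : (toAdic r hr).residual.IsEquiv
      (S53_helper35.ofMatRes (S53_helper35.mapMat (residue A) r)
        (S53_helper35.resCont_mapMat_residue hr)) :=
    S53_helper35.residual_ofMat_isEquiv r hr
  have h2 : (ρbar.baseChangeAlong ι).IsEquiv
      (S53_helper35.ofMatRes (S53_helper35.mapMat ι (rbarOf ρbar))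
        (S53_helper35.resCont_mapMat ι (resCont_rbarOf ρbar))) :=
    S53_helper35.baseChangeAlong_isEquiv_ofMatRes ι ρbar (S53_helper35.stdBasisRes ρbar)
  have h3 := S53_helper35.ofMatRes_isEquiv_iff (S53_helper35.resCont_mapMat_residue hr)
    (S53_helper35.resCont_mapMat ι (resCont_rbarOf ρbar))
  constructor
  · intro h
    obtain ⟨e1⟩ := h1
    obtain ⟨e2⟩ := h2
    obtain ⟨e⟩ := h
    obtain ⟨P, hP⟩ := h3.mp ⟨e1.symm.trans (e.trans e2)⟩
    refine ⟨P⁻¹, fun σ => ?_⟩
    have := hP σ
    rw [S53_helper35.mapMat_apply, S53_helper35.mapMat_apply] at this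
    rw [inv_inv, mul_assoc, ← this, ← mul_assoc, Units.inv_mul, one_mul]
  · rintro ⟨N, hN⟩
    obtain ⟨e1⟩ := h1
    obtain ⟨e2⟩ := h2
    have h4 : (S53_helper35.ofMatRes (S53_helper35.mapMat (residue A) r)
        (S53_helper35.resCont_mapMat_residue hr)).IsEquiv
        (S53_helper35.ofMatRes (S53_helper35.mapMat ι (rbarOf ρbar))
          (S53_helper35.resCont_mapMat ι (resCont_rbarOf ρbar))) := by
      refine h3.mpr ⟨N⁻¹, fun σ => ?_⟩
      rw [S53_helper35.mapMat_apply, S53_helper35.mapMat_apply, hN σ, ← mul_assoc, ← mul_assoc,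
        Units.inv_mul, one_mul]
    obtain ⟨e⟩ := h4
    exact ⟨e1.trans (e.trans e2.symm)⟩

end Residual

/-- D6. `IsLift` in terms of reduction of matrices. -/
theorem isLift_iff (𝒪 : Type) [CommRing 𝒪] [IsLocalRing 𝒪]
    {A : Type} [CommRing A] [IsLocalRing A] [Algebra 𝒪 A]
    [IsLocalHom (algebraMap 𝒪 A)] (rbar : GQ →* M2 (ResidueField 𝒪)) (r : GQ →* M2 A) :
    IsLift 𝒪 rbar r ↔ ∀ σ, (r σ).map (residue A) =
      (rbar σ).map (ResidueField.map (algebraMap 𝒪 A)) := by
  constructor
  · intro h σ
    ext i j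
    obtain ⟨o, ho, hmem⟩ := h σ i j
    rw [Matrix.map_apply, Matrix.map_apply, ← ho, ResidueField.map_residue]
    rw [← residue_eq_zero_iff, map_sub, sub_eq_zero] at hmem
    exact hmem
  · intro h σ i j
    obtain ⟨o, ho⟩ := residue_surjective (rbar σ i j)
    refine ⟨o, ho, ?_⟩
    have := congrFun (congrFun (h σ) i) j
    rw [Matrix.map_apply, Matrix.map_apply, ← ho, ResidueField.map_residue] at this
    rw [← residue_eq_zero_iff, map_sub, sub_eq_zero]
    exact this

end

end Fermat.Agent.S53
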