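import Fermat.Agent.S53.Defs

set_option autoImplicit false
set_option linter.unusedSectionVars false

/-!
# S53 task E-basic: elementary facts on the power series ring over a local ring
-/

namespace Fermat.Agent.S53

open IsLocalRing MvPowerSeries

section

variable (𝒪 : Type*) [CommRing 𝒪] [IsLocalRing 𝒪] (ι : Type*) [Finite ι]

omit [Finite ι] in
/-- A power series over a local ring lies in the maximal ideal iff its constant coefficient
does. -/
theorem mem_maximalIdeal_mvPowerSeries_iff (f : MvPowerSeries ι 𝒪) :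
    f ∈ maximalIdeal (MvPowerSeries ι 𝒪) ↔ constantCoeff f ∈ maximalIdeal 𝒪 := by
  rw [mem_maximalIdeal, mem_maximalIdeal, mem_nonunits_iff, mem_nonunits_iff,
    MvPowerSeries.isUnit_iff_constantCoeff]

/-- E3a. -/
theorem isLocalHom_algebraMap_mvPowerSeries :
    IsLocalHom (algebraMap 𝒪 (MvPowerSeries ι 𝒪)) := by
  refine ⟨fun a ha => ?_⟩
  have h := MvPowerSeries.isUnit_constantCoeff _ ha
  rwa [MvPowerSeries.algebraMap_apply, Algebra.algebraMap_self, RingHom.id_apply,
    MvPowerSeries.constantCoeff_C] at h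

/-- E3b. -/
theorem residue_algebraMap_mvPowerSeries_surjective :
    Function.Surjective (residue (MvPowerSeries ι 𝒪) ∘ algebraMap 𝒪 (MvPowerSeries ι 𝒪)) := by
  intro b
  obtain ⟨f, rfl⟩ := residue_surjective b
  refine ⟨constantCoeff f, ?_⟩
  rw [Function.comp_apply, eq_comm, ← sub_eq_zero, ← map_sub, residue_eq_zero_iff,
    mem_maximalIdeal_mvPowerSeries_iff, map_sub, MvPowerSeries.algebraMap_apply,
    Algebra.algebraMap_self, RingHom.id_apply, MvPowerSeries.constantCoeff_C, sub_self]
  exact zero_mem _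

/-- E3c. -/
theorem X_mem_maximalIdeal (s : ι) :
    (X s : MvPowerSeries ι 𝒪) ∈ maximalIdeal (MvPowerSeries ι 𝒪) := by
  rw [mem_maximalIdeal_mvPowerSeries_iff, MvPowerSeries.constantCoeff_X]
  exact zero_mem _

/-- The residue field of the power series ring is finite if that of the base is. -/
theorem finite_residueField_mvPowerSeries [Finite (ResidueField 𝒪)] :
    Finite (ResidueField (MvPowerSeries ι 𝒪)) := by
  have hs := residue_algebraMap_mvPowerSeries_surjective 𝒪 ι
  have := isLocalHom_algebraMap_mvPowerSeries 𝒪 ι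
  have hs' : Function.Surjective
      (ResidueField.map (algebraMap 𝒪 (MvPowerSeries ι 𝒪))) := by
    intro b
    obtain ⟨a, ha⟩ := hs b
    exact ⟨residue 𝒪 a, by rw [ResidueField.map_residue]; exact ha⟩
  exact Finite.of_surjective _ hs'

/-- E4. -/
theorem finite_quotient_maximalIdeal_pow [IsNoetherianRing 𝒪] [Finite (ResidueField 𝒪)] (n : ℕ) :
    Finite (MvPowerSeries ι 𝒪 ⧸ maximalIdeal (MvPowerSeries ι 𝒪) ^ n) := by
  have : Finite (MvPowerSeries ι 𝒪 ⧸ maximalIdeal (MvPowerSeries ι 𝒪)) :=
    finite_residueField_mvPowerSeries 𝒪 ι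
  exact Ideal.finite_quotient_pow (IsNoetherian.noetherian _) n

end

end Fermat.Agent.S53
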