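import Mathlib

set_option autoImplicit false

/-!
# Auxiliary lemmas for E0: the coefficient filtration on a multivariate power series ring
-/

namespace Fermat.Agent.S53.PSC

open MvPowerSeries Finsupp

variable {R : Type*} [CommRing R] {σ : Type*}

/-- products respect the coefficient filtration attached to an ideal `I` of `R`. -/
theorem coeff_mul_mem (I : Ideal R) {a b : ℕ} {f g : MvPowerSeries σ R}
    (hf : ∀ d, coeff d f ∈ I ^ (a - d.degree)) (hg : ∀ d, coeff d g ∈ I ^ (b - d.degree))
    (d : σ →₀ ℕ) : coeff d (f * g) ∈ I ^ (a + b - d.degree) := by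
  classical
  rw [coeff_mul]
  refine Ideal.sum_mem _ fun p hp => ?_
  rw [Finset.HasAntidiagonal.mem_antidiagonal] at hp
  have h1 : coeff p.1 f * coeff p.2 g ∈ I ^ (a - p.1.degree) * I ^ (b - p.2.degree) :=
    Ideal.mul_mem_mul (hf _) (hg _)
  rw [← pow_add] at h1
  refine Ideal.pow_le_pow_right ?_ h1
  have : d.degree = p.1.degree + p.2.degree := by rw [← hp, map_add]
  omega

/-- the coefficient filtration: power series whose coefficient of degree `d` lies in
`I ^ (n - d)`. -/
def filt (I : Ideal R) (n : ℕ) : Ideal (MvPowerSeries σ R) where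
  carrier := {f | ∀ d, coeff d f ∈ I ^ (n - d.degree)}
  add_mem' := fun {f g} hf hg d => by
    rw [map_add]; exact Ideal.add_mem _ (hf d) (hg d)
  zero_mem' := fun d => by simp
  smul_mem' := fun c f hf d => by
    have h0 : ∀ d, coeff d c ∈ I ^ (0 - d.degree) := fun d => by simp
    have := coeff_mul_mem I h0 hf d
    rwa [zero_add] at this

theorem mem_filt {I : Ideal R} {n : ℕ} {f : MvPowerSeries σ R} :
    f ∈ filt (σ := σ) I n ↔ ∀ d, coeff d f ∈ I ^ (n - d.degree) := Iff.rfl

theorem filt_zero (I : Ideal R) : filt (σ := σ) I 0 = ⊤ := by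
  rw [Ideal.eq_top_iff_one, mem_filt]
  intro d; simp

theorem filt_mul_le (I : Ideal R) (a b : ℕ) :
    filt (σ := σ) I a * filt I b ≤ filt I (a + b) := by
  rw [Ideal.mul_le]
  intro f hf g hg
  exact fun d => coeff_mul_mem I hf hg d

theorem pow_le_filt (I : Ideal R) {J : Ideal (MvPowerSeries σ R)} (hJ : J ≤ filt I 1) (n : ℕ) :
    J ^ n ≤ filt I n := by
  induction n with
  | zero => rw [filt_zero]; exact le_top
  | succ k ih =>
    rw [pow_succ]
    exact (Ideal.mul_mono ih hJ).trans (filt_mul_le I k 1)

section Decomp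

open Classical in
/-- a chosen variable occurring in a monomial (if any). -/
noncomputable def pick (d : σ →₀ ℕ) : Option σ :=
  if h : d.support.Nonempty then some h.choose else none

theorem pick_spec {d : σ →₀ ℕ} {i : σ} (h : pick d = some i) : d i ≠ 0 := by
  unfold pick at h
  split_ifs at h with hne
  have h1 : hne.choose = i := Option.some.inj h
  have h2 := hne.choose_spec
  rw [h1, Finsupp.mem_support_iff] at h2
  exact h2

theorem pick_exists {d : σ →₀ ℕ} (h : d ≠ 0) : ∃ i, pick d = some i := by
  have hne : d.support.Nonempty := Finsupp.support_nonempty_iff.2 h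
  exact ⟨hne.choose, by unfold pick; rw [dif_pos hne]⟩

open Classical in
/-- the `i`-th partial quotient in the decomposition `f = C f₀ + ∑ X i * part f i`. -/
noncomputable def part (f : MvPowerSeries σ R) (i : σ) : MvPowerSeries σ R :=
  fun d => if pick (d + single i 1) = some i then coeff (d + single i 1) f else 0

theorem coeff_part (f : MvPowerSeries σ R) (i : σ) (d : σ →₀ ℕ) :
    coeff d (part f i) = 0 ∨ coeff d (part f i) = coeff (d + single i 1) f := by
  classical
  change (if pick (d + single i 1) = some i then coeff (d + single i 1) f else 0) = 0 ∨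
    (if pick (d + single i 1) = some i then coeff (d + single i 1) f else 0) = _
  split_ifs
  · exact Or.inr rfl
  · exact Or.inl rfl

theorem coeff_part_eq (f : MvPowerSeries σ R) (i : σ) (d : σ →₀ ℕ) :
    coeff d (part f i) =
      open Classical in if pick (d + single i 1) = some i then coeff (d + single i 1) f else 0 :=
  rfl

theorem decomp [Fintype σ] (f : MvPowerSeries σ R) :
    f = C (constantCoeff f) + ∑ i, X i * part f i := by
  classical
  ext d
  rw [map_add, map_sum, coeff_C]
  have hterm : ∀ i, coeff d (X i * part f i) =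
      if single i 1 ≤ d ∧ pick d = some i then coeff d f else 0 := by
    intro i
    rw [X, coeff_monomial_mul, one_mul]
    by_cases hle : single i 1 ≤ d
    · rw [if_pos hle, coeff_part_eq, tsub_add_cancel_of_le hle]
      simp [hle]
    · rw [if_neg hle]; simp [hle]
  simp_rw [hterm]
  by_cases hd : d = 0
  · subst hd
    rw [if_pos rfl]
    have : ∀ i : σ, ¬ (single i 1 ≤ (0 : σ →₀ ℕ)) := fun i h => by
      have := h i; simp at this
    simp [this]
  · rw [if_neg hd, zero_add]
    obtain ⟨i₀, hi₀⟩ := pick_exists hd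
    have hle₀ : single i₀ 1 ≤ d := by
      rw [Finsupp.single_le_iff]
      have := pick_spec hi₀
      omega
    have : ∀ i, (if single i 1 ≤ d ∧ pick d = some i then coeff d f else 0) =
        if i = i₀ then coeff d f else 0 := by
      intro i
      by_cases hi : i = i₀
      · subst hi; simp [hle₀, hi₀]
      · have : pick d ≠ some i := by rw [hi₀]; intro h; exact hi (Option.some.inj h).symm
        simp [this, hi]
    simp_rw [this]
    simp

end Decomp

section Pow

theorem part_mem_filt {I : Ideal R} {n : ℕ} {f : MvPowerSeries σ R} (hf : f ∈ filt I (n + 1))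
    (i : σ) : part f i ∈ filt I n := by
  intro d
  rcases coeff_part f i d with h | h
  · rw [h]; exact Ideal.zero_mem _
  · rw [h]
    have := hf (d + single i 1)
    rw [map_add, Finsupp.degree_single] at this
    have e : n + 1 - (d.degree + 1) = n - d.degree := by omega
    rwa [e] at this

theorem filt_le_pow [Finite σ] (I : Ideal R) {J : Ideal (MvPowerSeries σ R)}
    (hC : I.map (C (σ := σ) (R := R)) ≤ J) (hX : ∀ i, (X i : MvPowerSeries σ R) ∈ J) (n : ℕ) :
    filt I n ≤ J ^ n := by
  have := Fintype.ofFinite σ
  induction n with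
  | zero => rw [pow_zero, Ideal.one_eq_top]; exact le_top
  | succ k ih =>
    intro f hf
    rw [decomp f]
    refine Ideal.add_mem _ ?_ (Ideal.sum_mem _ fun i _ => ?_)
    · have h0 : constantCoeff f ∈ I ^ (k + 1) := by
        have := hf 0
        simpa using this
      have h1 : C (σ := σ) (constantCoeff f) ∈ (I ^ (k + 1)).map (C (σ := σ) (R := R)) :=
        Ideal.mem_map_of_mem _ h0
      rw [Ideal.map_pow] at h1
      exact Ideal.pow_right_mono hC _ h1
    · rw [pow_succ']
      exact Ideal.mul_mem_mul (hX i) (ih (part_mem_filt hf i))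

theorem pow_eq_filt [Finite σ] (I : Ideal R) {J : Ideal (MvPowerSeries σ R)}
    (hJ : J ≤ filt I 1) (hC : I.map (C (σ := σ) (R := R)) ≤ J)
    (hX : ∀ i, (X i : MvPowerSeries σ R) ∈ J) (n : ℕ) : J ^ n = filt I n :=
  le_antisymm (pow_le_filt I hJ n) (filt_le_pow I hC hX n)

end Pow

section Complete

theorem smodEq_pow_iff {S : Type*} [CommRing S] (J : Ideal S) (n : ℕ) (x y : S) :
    x ≡ y [SMOD (J ^ n • ⊤ : Submodule S S)] ↔ x - y ∈ J ^ n := by
  rw [SModEq.sub_mem, smul_eq_mul, Ideal.mul_top]

/-- **Precompleteness passes to power series rings** for any ideal `J` whose powers are given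
by the coefficient filtration. -/
theorem isPrecomplete_of_pow_eq_filt (I : Ideal R) [IsPrecomplete I R]
    (J : Ideal (MvPowerSeries σ R)) (hJ : ∀ n, J ^ n = filt I n) :
    IsPrecomplete J (MvPowerSeries σ R) := by
  refine ⟨fun f hf => ?_⟩
  have hf' : ∀ {m n : ℕ}, m ≤ n → f m - f n ∈ filt I m := by
    intro m n hmn
    rw [← hJ, ← smodEq_pow_iff]
    exact hf hmn
  -- the coefficient sequences
  have hcoeff : ∀ d : σ →₀ ℕ, ∃ L : R, ∀ n,
      coeff d (f (n + d.degree)) - L ∈ I ^ n := by
    intro d
    have := IsPrecomplete.prec' (I := I) (M := R) (fun n => coeff d (f (n + d.degree))) ?_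
    · obtain ⟨L, hL⟩ := this
      exact ⟨L, fun n => (smodEq_pow_iff I n _ L).1 (hL n)⟩
    · intro m n hmn
      rw [smodEq_pow_iff, ← map_sub]
      have := hf' (Nat.add_le_add_right hmn d.degree) d
      rwa [Nat.add_sub_cancel] at this
  choose L hL using hcoeff
  refine ⟨(fun d => L d : MvPowerSeries σ R), fun n => ?_⟩
  rw [smodEq_pow_iff, hJ]
  intro d
  rw [map_sub]
  have hLd : coeff d (fun d => L d : MvPowerSeries σ R) = L d := rfl
  rw [hLd]
  by_cases hnd : d.degree ≤ n
  · have := hL d (n - d.degree)
    rwa [Nat.sub_add_cancel hnd] at this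
  · have : n - d.degree = 0 := by omega
    rw [this, pow_zero, Ideal.one_eq_top]
    exact Submodule.mem_top

end Complete

end Fermat.Agent.S53.PSC
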