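import Fermat.Agent.S53.Defs
import Fermat.Agent.S53.PSCompleteAux

set_option autoImplicit false

/-!
# S53 task E0: the power series ring over a complete noetherian local ring is complete
-/

namespace Fermat.Agent.S53

open IsLocalRing MvPowerSeries

section

variable (𝒪 : Type*) [CommRing 𝒪] [IsLocalRing 𝒪] (ι : Type*) [Finite ι]

omit [Finite ι] in
theorem PSC.mem_maximalIdeal_iff (f : MvPowerSeries ι 𝒪) :
    f ∈ maximalIdeal (MvPowerSeries ι 𝒪) ↔ constantCoeff f ∈ maximalIdeal 𝒪 := by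
  rw [mem_maximalIdeal, mem_maximalIdeal, mem_nonunits_iff, mem_nonunits_iff,
    MvPowerSeries.isUnit_iff_constantCoeff]

omit [Finite ι] in
theorem PSC.maximalIdeal_le_filt :
    maximalIdeal (MvPowerSeries ι 𝒪) ≤ PSC.filt (maximalIdeal 𝒪) 1 := by
  intro f hf d
  by_cases hd : d = 0
  · subst hd
    have := (PSC.mem_maximalIdeal_iff 𝒪 ι f).1 hf
    simpa using this
  · have h1 : 1 - d.degree = 0 := by
      have : d.degree ≠ 0 := by
        rw [Ne, Finsupp.degree_eq_zero_iff]; exact hd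
      omega
    rw [h1, pow_zero, Ideal.one_eq_top]
    exact Submodule.mem_top

omit [Finite ι] in
theorem PSC.map_C_le :
    (maximalIdeal 𝒪).map (C (σ := ι) (R := 𝒪)) ≤ maximalIdeal (MvPowerSeries ι 𝒪) := by
  rw [Ideal.map_le_iff_le_comap]
  intro c hc
  rw [Ideal.mem_comap, PSC.mem_maximalIdeal_iff]
  simpa using hc

omit [Finite ι] in
theorem PSC.X_mem (i : ι) : (X i : MvPowerSeries ι 𝒪) ∈ maximalIdeal (MvPowerSeries ι 𝒪) := by
  rw [PSC.mem_maximalIdeal_iff]
  simp

/-- the powers of the maximal ideal of the power series ring are given by the coefficient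
filtration. -/
theorem PSC.maximalIdeal_pow_eq_filt (n : ℕ) :
    maximalIdeal (MvPowerSeries ι 𝒪) ^ n = PSC.filt (maximalIdeal 𝒪) n :=
  PSC.pow_eq_filt (maximalIdeal 𝒪) (PSC.maximalIdeal_le_filt 𝒪 ι) (PSC.map_C_le 𝒪 ι)
    (PSC.X_mem 𝒪 ι) n

/-- coefficient criterion for membership in a power of the maximal ideal. -/
theorem PSC.mem_maximalIdeal_pow_iff (n : ℕ) (f : MvPowerSeries ι 𝒪) :
    f ∈ maximalIdeal (MvPowerSeries ι 𝒪) ^ n ↔
      ∀ d, coeff d f ∈ maximalIdeal 𝒪 ^ (n - d.degree) := by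
  rw [PSC.maximalIdeal_pow_eq_filt]; exact Iff.rfl

/-- E0. The power series ring over a complete noetherian local ring is complete for its maximal
ideal. -/
theorem isAdicComplete_mvPowerSeries [IsNoetherianRing 𝒪] [IsAdicComplete (maximalIdeal 𝒪) 𝒪] :
    IsAdicComplete (maximalIdeal (MvPowerSeries ι 𝒪)) (MvPowerSeries ι 𝒪) := by
  have h1 : IsHausdorff (maximalIdeal (MvPowerSeries ι 𝒪)) (MvPowerSeries ι 𝒪) := inferInstance
  have h2 : IsPrecomplete (maximalIdeal (MvPowerSeries ι 𝒪)) (MvPowerSeries ι 𝒪) :=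
    PSC.isPrecomplete_of_pow_eq_filt (maximalIdeal 𝒪) _ (PSC.maximalIdeal_pow_eq_filt 𝒪 ι)
  exact { toIsHausdorff := h1, toIsPrecomplete := h2 }

end

end Fermat.Agent.S53
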