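import Fermat.Agent.S53.Defs

set_option autoImplicit false
set_option linter.unusedSectionVars false

/-!
# S53 task E-eval: evaluation of power series in complete local algebras
-/

namespace Fermat.Agent.S53

open IsLocalRing MvPowerSeries

section

variable {𝒪 : Type*} [CommRing 𝒪] [IsLocalRing 𝒪] {ι : Type*} [Finite ι]
variable {A : Type*} [CommRing A] [IsLocalRing A] [Algebra 𝒪 A]

/-- The ideal of the power series ring generated by the variables. -/
noncomputable abbrev psVars (𝒪 : Type*) [CommRing 𝒪] (ι : Type*) : Ideal (MvPowerSeries ι 𝒪) :=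
  Ideal.span (Set.range MvPowerSeries.X)

omit [IsLocalRing 𝒪] [Finite ι] in
theorem coe_mem_psVars_pow {n : ℕ} {v : MvPolynomial ι 𝒪}
    (hv : v ∈ MvPolynomial.idealOfVars ι 𝒪 ^ n) :
    (v : MvPowerSeries ι 𝒪) ∈ psVars 𝒪 ι ^ n := by
  have h1 : (MvPolynomial.idealOfVars ι 𝒪).map
      (MvPolynomial.coeToMvPowerSeries.ringHom : MvPolynomial ι 𝒪 →+* _) = psVars 𝒪 ι := by
    rw [MvPolynomial.idealOfVars, Ideal.map_span, ← Set.range_comp]
    congr 2
    ext i : 1
    exact MvPolynomial.coe_X i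
  rw [← h1, ← Ideal.map_pow]
  exact Ideal.mem_map_of_mem _ hv

omit [IsLocalRing 𝒪] in
/-- A power series differs from its truncation by an element of the `n`-th power of the ideal
generated by the variables. -/
theorem sub_truncTotal_mem_psVars_pow (n : ℕ) (f : MvPowerSeries ι 𝒪) :
    f - ((truncTotal n f : MvPolynomial ι 𝒪) : MvPowerSeries ι 𝒪) ∈ psVars 𝒪 ι ^ n := by
  set e := toAdicCompletionAlgEquiv ι 𝒪 with he
  set g := f - ((truncTotal n f : MvPolynomial ι 𝒪) : MvPowerSeries ι 𝒪) with hg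
  have h1 : e g ∈ (MvPolynomial.idealOfVars ι 𝒪 ^ n • ⊤ :
      Submodule (MvPolynomial ι 𝒪)
        (AdicCompletion (MvPolynomial.idealOfVars ι 𝒪) (MvPolynomial ι 𝒪))) := by
    rw [AdicCompletion.pow_smul_top_eq_ker_eval (MvPolynomial.idealOfVars_fg ι 𝒪),
      LinearMap.mem_ker, hg, map_sub, map_sub, sub_eq_zero, he,
      toAdicCompletionAlgEquiv_apply, toAdicCompletionAlgEquiv_apply, toAdicCompletion_coe,
      AdicCompletion.eval_of, AdicCompletion.eval_apply,
      toAdicCompletion_apply_eq_mk_truncTotal]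
    rfl
  have h2 : ∀ x ∈ (MvPolynomial.idealOfVars ι 𝒪 ^ n • ⊤ :
      Submodule (MvPolynomial ι 𝒪)
        (AdicCompletion (MvPolynomial.idealOfVars ι 𝒪) (MvPolynomial ι 𝒪))),
      e.symm x ∈ psVars 𝒪 ι ^ n := by
    intro x hx
    refine Submodule.smul_induction_on hx (fun r hr y _ => ?_) (fun y z hy hz => ?_)
    · rw [map_smul, Algebra.smul_def]
      exact Ideal.mul_mem_right _ _ (coe_mem_psVars_pow hr)
    · rw [map_add]
      exact add_mem hy hz
  have h3 := h2 _ h1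
  rwa [AlgEquiv.symm_apply_apply] at h3

omit [IsLocalRing 𝒪] [Finite ι] in
theorem aeval_mem_pow_of_mem_idealOfVars_pow (a : ι → A) (ha : ∀ s, a s ∈ maximalIdeal A)
    {n : ℕ} {v : MvPolynomial ι 𝒪} (hv : v ∈ MvPolynomial.idealOfVars ι 𝒪 ^ n) :
    MvPolynomial.aeval a v ∈ maximalIdeal A ^ n := by
  have h1 : (MvPolynomial.idealOfVars ι 𝒪).map
      (MvPolynomial.aeval a : MvPolynomial ι 𝒪 →ₐ[𝒪] A).toRingHom ≤ maximalIdeal A := by
    rw [MvPolynomial.idealOfVars, Ideal.map_span, Ideal.span_le]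
    rintro _ ⟨_, ⟨s, rfl⟩, rfl⟩
    simpa using ha s
  have h2 : MvPolynomial.aeval a v ∈ (MvPolynomial.idealOfVars ι 𝒪 ^ n).map
      (MvPolynomial.aeval a : MvPolynomial ι 𝒪 →ₐ[𝒪] A).toRingHom :=
    Ideal.mem_map_of_mem _ hv
  rw [Ideal.map_pow] at h2
  exact Ideal.pow_right_mono h1 n h2

omit [IsLocalRing 𝒪] [Finite ι] in
/-- An algebra hom out of the power series ring mapping the variables into the maximal ideal maps
the `n`-th power of the ideal generated by the variables into the `n`-th power of the maximal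
ideal. -/
theorem algHom_mem_pow_of_mem_psVars_pow (φ : MvPowerSeries ι 𝒪 →ₐ[𝒪] A)
    (hφ : ∀ s, φ (X s) ∈ maximalIdeal A) {n : ℕ} {g : MvPowerSeries ι 𝒪}
    (hg : g ∈ psVars 𝒪 ι ^ n) : φ g ∈ maximalIdeal A ^ n := by
  have h1 : (psVars 𝒪 ι).map φ.toRingHom ≤ maximalIdeal A := by
    rw [psVars, Ideal.map_span, Ideal.span_le]
    rintro _ ⟨_, ⟨s, rfl⟩, rfl⟩
    exact hφ s
  have h2 : φ g ∈ (psVars 𝒪 ι ^ n).map φ.toRingHom := Ideal.mem_map_of_mem _ hg
  rw [Ideal.map_pow] at h2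
  exact Ideal.pow_right_mono h1 n h2

omit [IsLocalRing 𝒪] [Finite ι] in
theorem algHom_coe_eq_aeval (φ : MvPowerSeries ι 𝒪 →ₐ[𝒪] A) (p : MvPolynomial ι 𝒪) :
    φ (p : MvPowerSeries ι 𝒪) = MvPolynomial.aeval (fun s => φ (X s)) p := by
  have h : (φ.comp (MvPolynomial.coeToMvPowerSeries.algHom 𝒪)) =
      MvPolynomial.aeval (fun s => φ (X s)) := by
    apply MvPolynomial.algHom_ext
    intro s
    simp
  exact congrArg (fun ψ : MvPolynomial ι 𝒪 →ₐ[𝒪] A => ψ p) h

/-- The level `n` evaluation map, as a ring hom. -/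
noncomputable def evalLevelRingHom (a : ι → A) (ha : ∀ s, a s ∈ maximalIdeal A) (n : ℕ) :
    MvPowerSeries ι 𝒪 →+* A ⧸ maximalIdeal A ^ n :=
  (Ideal.Quotient.lift (MvPolynomial.idealOfVars ι 𝒪 ^ n)
    ((Ideal.Quotient.mk (maximalIdeal A ^ n)).comp
      (MvPolynomial.aeval a : MvPolynomial ι 𝒪 →ₐ[𝒪] A).toRingHom)
    (fun v hv => by
      rw [RingHom.comp_apply]
      exact Ideal.Quotient.eq_zero_iff_mem.mpr
        (aeval_mem_pow_of_mem_idealOfVars_pow a ha hv))).comp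
  (MvPowerSeries.truncTotalAlgHom ι 𝒪 n).toRingHom

omit [IsLocalRing 𝒪] in
theorem evalLevelRingHom_apply (a : ι → A) (ha : ∀ s, a s ∈ maximalIdeal A) (n : ℕ)
    (f : MvPowerSeries ι 𝒪) :
    evalLevelRingHom a ha n f =
      Ideal.Quotient.mk (maximalIdeal A ^ n) (MvPolynomial.aeval a (truncTotal n f)) := by
  simp [evalLevelRingHom, MvPowerSeries.truncTotalAlgHom_apply]

omit [IsLocalRing 𝒪] in
theorem evalLevelRingHom_coe (a : ι → A) (ha : ∀ s, a s ∈ maximalIdeal A) (n : ℕ)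
    (p : MvPolynomial ι 𝒪) :
    evalLevelRingHom a ha n (p : MvPowerSeries ι 𝒪) =
      Ideal.Quotient.mk (maximalIdeal A ^ n) (MvPolynomial.aeval a p) := by
  have h1 : (MvPowerSeries.truncTotalAlgHom ι 𝒪 n) (p : MvPowerSeries ι 𝒪) =
      Ideal.Quotient.mk _ p :=
    (MvPowerSeries.truncTotalAlgHom ι 𝒪 n).commutes p
  simp only [evalLevelRingHom, RingHom.comp_apply, AlgHom.toRingHom_eq_coe, RingHom.coe_coe, h1,
    Ideal.Quotient.lift_mk]

/-- The level `n` evaluation map, as an algebra hom. -/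
noncomputable def evalLevel (a : ι → A) (ha : ∀ s, a s ∈ maximalIdeal A) (n : ℕ) :
    MvPowerSeries ι 𝒪 →ₐ[𝒪] A ⧸ maximalIdeal A ^ n :=
  { evalLevelRingHom a ha n with
    commutes' := fun c => by
      show evalLevelRingHom a ha n (algebraMap 𝒪 (MvPowerSeries ι 𝒪) c) = _
      rw [MvPowerSeries.algebraMap_apply, Algebra.algebraMap_self, RingHom.id_apply,
        ← MvPolynomial.coe_C, evalLevelRingHom_coe, MvPolynomial.aeval_C]
      rfl }

omit [IsLocalRing 𝒪] in
theorem evalLevel_apply (a : ι → A) (ha : ∀ s, a s ∈ maximalIdeal A) (n : ℕ)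
    (f : MvPowerSeries ι 𝒪) :
    evalLevel a ha n f =
      Ideal.Quotient.mk (maximalIdeal A ^ n) (MvPolynomial.aeval a (truncTotal n f)) :=
  evalLevelRingHom_apply a ha n f

omit [IsLocalRing 𝒪] in
theorem evalLevel_X (a : ι → A) (ha : ∀ s, a s ∈ maximalIdeal A) (n : ℕ) (s : ι) :
    evalLevel (𝒪 := 𝒪) a ha n (X s) = Ideal.Quotient.mk (maximalIdeal A ^ n) (a s) := by
  show evalLevelRingHom a ha n (X s) = _
  rw [← MvPolynomial.coe_X, evalLevelRingHom_coe, MvPolynomial.aeval_X]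

omit [IsLocalRing 𝒪] in
theorem evalLevel_compat (a : ι → A) (ha : ∀ s, a s ∈ maximalIdeal A) {m n : ℕ} (hle : m ≤ n) :
    (Ideal.Quotient.factorₐ 𝒪 (Ideal.pow_le_pow_right hle)).comp (evalLevel (𝒪 := 𝒪) a ha n) =
      evalLevel a ha m := by
  ext f
  rw [AlgHom.comp_apply, evalLevel_apply, evalLevel_apply, Ideal.Quotient.factorₐ_apply_mk,
    Ideal.Quotient.eq, ← map_sub]
  exact aeval_mem_pow_of_mem_idealOfVars_pow a ha
    (MvPowerSeries.truncTotal_sub_truncTotal_mem_pow_idealOfVars hle le_rfl f)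

/-- E1. Evaluation of power series at elements of the maximal ideal of a complete local
`𝒪`-algebra. -/
theorem exists_algHom_X [IsAdicComplete (maximalIdeal A) A] (a : ι → A)
    (ha : ∀ s, a s ∈ maximalIdeal A) :
    ∃ φ : MvPowerSeries ι 𝒪 →ₐ[𝒪] A, ∀ s, φ (X s) = a s := by
  refine ⟨IsAdicComplete.liftAlgHom (maximalIdeal A) (evalLevel a ha)
    (fun hle => evalLevel_compat a ha hle), fun s => ?_⟩
  rw [← sub_eq_zero]
  apply IsHausdorff.haus (inferInstance : IsHausdorff (maximalIdeal A) A)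
  intro n
  rw [smul_eq_mul, Ideal.mul_top, SModEq.zero, ← Ideal.Quotient.eq_zero_iff_mem, map_sub,
    IsAdicComplete.mk_liftAlgHom, evalLevel_X, sub_self]

/-- E2. An `𝒪`-algebra hom out of the power series ring into a separated local ring, mapping the
variables into the maximal ideal, is determined by its values on the variables. -/
theorem algHom_ext_X [IsHausdorff (maximalIdeal A) A] (φ ψ : MvPowerSeries ι 𝒪 →ₐ[𝒪] A)
    (hφ : ∀ s, φ (X s) ∈ maximalIdeal A) (h : ∀ s, φ (X s) = ψ (X s)) : φ = ψ := by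
  ext f
  rw [← sub_eq_zero]
  apply IsHausdorff.haus (inferInstance : IsHausdorff (maximalIdeal A) A)
  intro n
  rw [smul_eq_mul, Ideal.mul_top, SModEq.zero]
  have hψ : ∀ s, ψ (X s) ∈ maximalIdeal A := fun s => h s ▸ hφ s
  have hg := sub_truncTotal_mem_psVars_pow n f
  set p := truncTotal n f
  have h1 : φ (p : MvPowerSeries ι 𝒪) = ψ (p : MvPowerSeries ι 𝒪) := by
    rw [algHom_coe_eq_aeval, algHom_coe_eq_aeval]
    congr 2
    funext s
    exact h s
  have h2 : φ f - ψ f = φ (f - (p : MvPowerSeries ι 𝒪)) - ψ (f - (p : MvPowerSeries ι 𝒪)) := by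
    rw [map_sub, map_sub, h1]; ring
  rw [h2]
  exact sub_mem (algHom_mem_pow_of_mem_psVars_pow φ hφ hg)
    (algHom_mem_pow_of_mem_psVars_pow ψ hψ hg)

/-- E5. If the maximal ideal of `A` is nilpotent, the range of such a hom is the subalgebra
generated by the images of the variables. -/
theorem range_eq_adjoin_of_nilpotent (hnil : ∃ n, maximalIdeal A ^ n = ⊥)
    (φ : MvPowerSeries ι 𝒪 →ₐ[𝒪] A) (hφ : ∀ s, φ (X s) ∈ maximalIdeal A) :
    φ.range = Algebra.adjoin 𝒪 (Set.range fun s => φ (X s)) := by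
  obtain ⟨n, hn⟩ := hnil
  apply le_antisymm
  · rintro _ ⟨f, rfl⟩
    have hg := algHom_mem_pow_of_mem_psVars_pow φ hφ (sub_truncTotal_mem_psVars_pow n f)
    rw [hn, Ideal.mem_bot, map_sub, sub_eq_zero] at hg
    show φ f ∈ _
    rw [hg, algHom_coe_eq_aeval, Algebra.adjoin_range_eq_range_aeval]
    exact AlgHom.mem_range_self _ _
  · rw [Algebra.adjoin_le_iff]
    rintro _ ⟨s, rfl⟩
    exact ⟨X s, rfl⟩

end

end Fermat.Agent.S53
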