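import Fermat.Agent.S53.Problem
import Fermat.Agent.S53_helper84.TestAlg
import Fermat.Agent.S53_helper84.TangentBridge

set_option autoImplicit false
set_option linter.unusedSectionVars false
set_option linter.style.haveILetI false

/-!
# S53 task H-basic: artinian test algebras, basic facts
-/

namespace Fermat.Agent.S53

open IsLocalRing GaloisRep

noncomputable section

variable (𝒪 : Type) [CommRing 𝒪] [IsLocalRing 𝒪]

variable {A B : Type} [CommRing A] [IsLocalRing A] [Algebra 𝒪 A]
  [CommRing B] [IsLocalRing B] [Algebra 𝒪 B]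

/-- H1a. -/
theorem finite_of_isArtinianTestAlgebra [Finite (ResidueField 𝒪)]
    (hA : IsArtinianTestAlgebra 𝒪 A) : Finite A :=
  Fermat.Agent.S53_helper84.finite_of_isArtinianTestAlgebra hA

/-- H1b. -/
theorem exists_maximalIdeal_pow_eq_bot (hA : IsArtinianTestAlgebra 𝒪 A) :
    ∃ n, maximalIdeal A ^ n = ⊥ :=
  Fermat.Agent.S53_helper84.exists_maximalIdeal_pow_eq_bot hA

/-- H6. Algebra homs into a local algebra with residue field `k` are automatically local. -/
theorem isLocalHom_of_algHom
    (hB : Function.Surjective (IsLocalRing.residue B ∘ algebraMap 𝒪 B)) (φ : A →ₐ[𝒪] B) :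
    IsLocalHom (φ : A →+* B) := by
  set ψ : A →+* ResidueField B := (residue B).comp (φ : A →+* B) with hψ
  have hsurj : Function.Surjective ψ := by
    intro y
    obtain ⟨a, ha⟩ := hB y
    refine ⟨algebraMap 𝒪 A a, ?_⟩
    rw [← ha, hψ, RingHom.comp_apply, Function.comp_apply]
    congr 1
    exact φ.commutes a
  have hker : RingHom.ker ψ = maximalIdeal A :=
    IsLocalRing.eq_maximalIdeal (RingHom.ker_isMaximal_of_surjective ψ hsurj)
  refine ⟨fun a ha => ?_⟩
  by_contra hna
  have ham : a ∈ RingHom.ker ψ := by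
    rw [hker]
    exact (mem_maximalIdeal a).mpr hna
  rw [RingHom.mem_ker, hψ, RingHom.comp_apply, residue_eq_zero_iff] at ham
  exact (mem_maximalIdeal _).mp ham ha

/-- H7a. -/
theorem isArtinianTestAlgebra_residueField : IsArtinianTestAlgebra 𝒪 (ResidueField 𝒪) := by
  refine ⟨?_, ?_, inferInstance⟩
  · rw [ResidueField.algebraMap_eq]
    infer_instance
  · intro y
    obtain ⟨x, rfl⟩ := residue_surjective y
    obtain ⟨a, rfl⟩ := residue_surjective x
    exact ⟨a, rfl⟩

/-- H7b. -/
theorem isArtinianTestAlgebra_dualNumber :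
    letI := dualNumberAlgebra 𝒪
    IsArtinianTestAlgebra 𝒪 (DualNumber (ResidueField 𝒪)) := by
  show @IsArtinianTestAlgebra 𝒪 _ (DualNumber (ResidueField 𝒪)) _ _ (dualNumberAlgebra 𝒪)
  have e : dualNumberAlgebra 𝒪 = (inferInstance : Algebra 𝒪 (DualNumber (ResidueField 𝒪))) :=
    Fermat.Agent.S53_helper84.dualNumberAlgebra_eq 𝒪
  rw [e]
  exact Fermat.Agent.S53_helper84.isArtinianTestAlgebra_dualNumber 𝒪

/-- H4. Open proper quotients of noetherian local algebras with residue field `k` are test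
algebras. -/
theorem isArtinianTestAlgebra_quotient [IsNoetherianRing A] [IsLocalHom (algebraMap 𝒪 A)]
    (hA : Function.Surjective (IsLocalRing.residue A ∘ algebraMap 𝒪 A))
    (I : Ideal A) [IsLocalRing (A ⧸ I)] (hopen : ∃ n, maximalIdeal A ^ n ≤ I) :
    IsArtinianTestAlgebra 𝒪 (A ⧸ I) := by
  haveI : IsLocalHom (Ideal.Quotient.mk I) :=
    IsLocalHom.of_surjective _ Ideal.Quotient.mk_surjective
  refine ⟨?_, ?_, ?_⟩
  · have : algebraMap 𝒪 (A ⧸ I) = (Ideal.Quotient.mk I).comp (algebraMap 𝒪 A) := rfl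
    rw [this]
    exact RingHom.isLocalHom_comp _ _
  · intro y
    obtain ⟨y, rfl⟩ := residue_surjective y
    obtain ⟨y, rfl⟩ := Ideal.Quotient.mk_surjective y
    obtain ⟨a, ha⟩ := hA (residue A y)
    refine ⟨a, ?_⟩
    rw [Function.comp_apply] at ha ⊢
    rw [← sub_eq_zero, ← map_sub, residue_eq_zero_iff] at ha ⊢
    have : algebraMap 𝒪 (A ⧸ I) a - Ideal.Quotient.mk I y =
        Ideal.Quotient.mk I (algebraMap 𝒪 A a - y) := by
      rw [map_sub]; rfl
    rw [this]
    exact map_nonunit (Ideal.Quotient.mk I) _ ha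
  · obtain ⟨n, hn⟩ := hopen
    rw [isArtinianRing_iff_isNilpotent_maximalIdeal]
    refine ⟨n, ?_⟩
    rw [Ideal.zero_eq_bot, eq_bot_iff]
    have hmax : maximalIdeal (A ⧸ I) = (maximalIdeal A).map (Ideal.Quotient.mk I) := by
      refine le_antisymm ?_ ?_
      · intro x hx
        obtain ⟨x, rfl⟩ := Ideal.Quotient.mk_surjective x
        refine Ideal.mem_map_of_mem _ ?_
        rw [mem_maximalIdeal, mem_nonunits_iff] at hx ⊢
        exact fun h => hx (h.map _)
      · rw [Ideal.map_le_iff_le_comap]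
        intro x hx
        exact map_nonunit (Ideal.Quotient.mk I) x hx
    rw [hmax, ← Ideal.map_pow]
    refine (Ideal.map_mono hn).trans ?_
    rw [Ideal.map_quotient_self]

end

end Fermat.Agent.S53
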