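import Fermat.Agent.S53.DictAdic
import Fermat.Agent.S53.DictResidual
import Fermat.Agent.S53.TestAlgBasic

set_option autoImplicit false
set_option linter.unusedSectionVars false

/-!
# S53 task I-data: from a universal matrix deformation to `DeformationRingData`
-/

namespace Fermat.Agent.S53

open IsLocalRing GaloisRep

noncomputable section

namespace DictData

section Equivs

variable {A : Type} [CommRing A] [IsLocalRing A]

theorem isEquiv_refl (ρ : GaloisRepAdic A) : ρ.IsEquiv ρ := ⟨GaloisRepAdic.Equiv.refl ρ⟩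

theorem isEquiv_symm {ρ ρ' : GaloisRepAdic A} (h : ρ.IsEquiv ρ') : ρ'.IsEquiv ρ := by
  obtain ⟨e⟩ := h
  exact ⟨e.symm⟩

theorem isEquiv_trans {ρ ρ' ρ'' : GaloisRepAdic A} (h : ρ.IsEquiv ρ') (h' : ρ'.IsEquiv ρ'') :
    ρ.IsEquiv ρ'' := by
  obtain ⟨e⟩ := h
  obtain ⟨e'⟩ := h'
  exact ⟨e.trans e'⟩

theorem isEquiv_baseChangeAlong {B : Type} [CommRing B] [IsLocalRing B] (φ : A →+* B)
    (hφ : IsLocalHom φ) {ρ ρ' : GaloisRepAdic A} (h : ρ.IsEquiv ρ') :
    (ρ.baseChangeAlong φ hφ).IsEquiv (ρ'.baseChangeAlong φ hφ) := by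
  obtain ⟨e⟩ := h
  exact ⟨e.baseChangeAlong φ hφ⟩

theorem residual_isEquiv_of_isEquiv {ρ ρ' : GaloisRepAdic A} (h : ρ.IsEquiv ρ') :
    ρ.residual.IsEquiv ρ'.residual := by
  obtain ⟨e⟩ := h
  exact ⟨e.residual⟩

theorem res_isEquiv_trans {k : Type} [Field k] {ρ ρ' ρ'' : ResidualGaloisRep k}
    (h : ρ.IsEquiv ρ') (h' : ρ'.IsEquiv ρ'') : ρ.IsEquiv ρ'' := by
  obtain ⟨e⟩ := h
  obtain ⟨e'⟩ := h'
  exact ⟨e.trans e'⟩

theorem res_isEquiv_symm {k : Type} [Field k] {ρ ρ' : ResidualGaloisRep k}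
    (h : ρ.IsEquiv ρ') : ρ'.IsEquiv ρ := by
  obtain ⟨e⟩ := h
  exact ⟨e.symm⟩

/-- Conjugate of a matrix valued hom by a unit. -/
def conjRep (M : (M2 A)ˣ) (r : GQ →* M2 A) : GQ →* M2 A where
  toFun σ := (M : M2 A) * r σ * ((M⁻¹ : (M2 A)ˣ) : M2 A)
  map_one' := by simp
  map_mul' σ τ := by
    rw [map_mul]
    calc (M : M2 A) * (r σ * r τ) * ((M⁻¹ : (M2 A)ˣ) : M2 A)
        = (M : M2 A) * r σ * (1 : M2 A) * r τ * ((M⁻¹ : (M2 A)ˣ) : M2 A) := by
          simp [mul_assoc]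
      _ = (M : M2 A) * r σ * (((M⁻¹ : (M2 A)ˣ) : M2 A) * (M : M2 A)) * r τ *
            ((M⁻¹ : (M2 A)ˣ) : M2 A) := by rw [Units.inv_mul]
      _ = _ := by simp only [mul_assoc]

theorem conjRep_apply (M : (M2 A)ˣ) (r : GQ →* M2 A) (σ : GQ) :
    conjRep M r σ = (M : M2 A) * r σ * ((M⁻¹ : (M2 A)ˣ) : M2 A) := rfl

theorem conj_conjRep (M : (M2 A)ˣ) (r : GQ →* M2 A) : Conj r (conjRep M r) :=
  ⟨M, fun _ => rfl⟩

end Equivs

section Complete

variable {𝒪 : Type} [CommRing 𝒪] [IsLocalRing 𝒪]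
  {𝒟 : ∀ ⦃A : Type⦄ [CommRing A] [IsLocalRing A] [Algebra 𝒪 A], GaloisRepAdic A → Prop}

/-- A deformation condition is invariant under equivalence over complete noetherian local
algebras (not only over artinian test algebras). -/
theorem of_isEquiv_complete (h𝒟 : GaloisRep.IsDeformationCondition 𝒪 𝒟)
    {A : Type} [CommRing A] [IsLocalRing A] [IsNoetherianRing A]
    [IsAdicComplete (maximalIdeal A) A] [Algebra 𝒪 A]
    (hloc : IsLocalHom (algebraMap 𝒪 A))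
    (hres : Function.Surjective (IsLocalRing.residue A ∘ algebraMap 𝒪 A))
    {ρ ρ' : GaloisRepAdic A} (h : ρ.IsEquiv ρ') (hρ : 𝒟 ρ) : 𝒟 ρ' := by
  rw [h𝒟.iff_forall_surjective hloc hres ρ'] 
  intro B _ _ _ hB q hq hqs
  have h1 : 𝒟 (ρ.baseChangeAlong (q : A →+* B) hq) :=
    (h𝒟.iff_forall_surjective hloc hres ρ).mp hρ hB q hq hqs
  exact h𝒟.of_isEquiv hB (isEquiv_baseChangeAlong (q : A →+* B) hq h) h1

end Complete

end DictData

open DictData

variable (𝒪 : Type) [CommRing 𝒪] [IsDomain 𝒪] [IsDiscreteValuationRing 𝒪]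
  [IsAdicComplete (IsLocalRing.maximalIdeal 𝒪) 𝒪] [Finite (IsLocalRing.ResidueField 𝒪)]
  (ρbar : ResidualGaloisRep (IsLocalRing.ResidueField 𝒪))
  (𝒟 : ∀ ⦃A : Type⦄ [CommRing A] [IsLocalRing A] [Algebra 𝒪 A], GaloisRepAdic A → Prop)

/-- D8. From a universal matrix deformation to `DeformationRingData`. -/
theorem nonempty_deformationRingData_of_univMatrixDef
    (habs : ρbar.IsAbsolutelyIrreducible)
    (h𝒟 : GaloisRep.IsDeformationCondition 𝒪 𝒟)
    (P : MatrixDefProblem 𝒪) (hP : P.rbar = rbarOf ρbar)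
    (hDm : ∀ ⦃A : Type⦄ [CommRing A] [IsLocalRing A] [Algebra 𝒪 A] (r : GQ →* M2 A),
        P.Dm r ↔ ∃ hr : Cont r, 𝒟 (toAdic r hr))
    (U : UnivMatrixDef P) : Nonempty (GaloisRep.DeformationRingData 𝒪 ρbar 𝒟) := by
  obtain ⟨hrU, hDU⟩ := (hDm U.r).mp U.dm
  -- the residual condition for the universal representation
  have hresU : (toAdic U.r hrU).residual.IsEquiv
      (ρbar.baseChangeAlong (IsLocalRing.ResidueField.map (algebraMap 𝒪 U.R))) := by
    rw [residual_toAdic_isEquiv_iff]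
    refine ⟨1, fun σ => ?_⟩
    have h := (isLift_iff 𝒪 P.rbar U.r).mp U.isLift σ
    rw [h, hP]
    simp
  refine ⟨{ R := U.R
            residue_surjective := U.residue_surjective
            absIrr := habs
            ρ := toAdic U.r hrU
            isOfType := hDU
            residual_isEquiv := hresU
            universal := ?_ }⟩
  intro A _ _ _ _ _ hloc hres ρA hDA hresA
  -- (1) matrix form of `ρA`
  obtain ⟨r₁, hr₁, he₁⟩ := exists_toAdic_isEquiv ρA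
  -- (2) normalise so that it is an exact lift of `rbar`
  have hres₁ : (toAdic r₁ hr₁).residual.IsEquiv
      (ρbar.baseChangeAlong (IsLocalRing.ResidueField.map (algebraMap 𝒪 A))) :=
    res_isEquiv_trans (residual_isEquiv_of_isEquiv (isEquiv_symm he₁)) hresA
  obtain ⟨N, hN⟩ := (residual_toAdic_isEquiv_iff ρbar _ r₁ hr₁).mp hres₁
  obtain ⟨M, hM⟩ := exists_units_map_residue (A := A) N
  set rA : GQ →* M2 A := conjRep M⁻¹ r₁ with hrA_def
  have hconj : Conj r₁ rA := conj_conjRep M⁻¹ r₁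
  have hrA : Cont rA := Cont.conj hr₁ hconj
  have heA : ρA.IsEquiv (toAdic rA hrA) :=
    isEquiv_trans he₁ ((toAdic_isEquiv_iff r₁ rA hr₁ hrA).mpr hconj)
  have hDrA : 𝒟 (toAdic rA hrA) := of_isEquiv_complete h𝒟 hloc hres heA hDA
  have hDmA : P.Dm rA := (hDm rA).mpr ⟨hrA, hDrA⟩
  have hliftA : IsLift 𝒪 P.rbar rA := by
    rw [isLift_iff 𝒪 P.rbar rA]
    intro σ
    have hMu : Units.map ((RingHom.mapMatrix (residue A) : M2 A →+* M2 (ResidueField A)) :
        M2 A →* M2 (ResidueField A)) M = N := by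
      apply Units.ext
      simpa using hM
    have hMinv : ((M⁻¹ : (M2 A)ˣ) : M2 A).map (residue A) = ((N⁻¹ : (M2 _)ˣ) : M2 _) := by
      rw [← hMu, ← map_inv]
      rfl
    rw [hrA_def, conjRep_apply, inv_inv, Matrix.map_mul, Matrix.map_mul, hMinv, hM, hN σ, hP]
    simp [mul_assoc]
  obtain ⟨φ, hφ, hφuniq⟩ := U.universal A hres rA hDmA hliftA
  have hlocal : ∀ ψ : U.R →ₐ[𝒪] A, IsLocalHom (ψ : U.R →+* A) := fun ψ =>
    isLocalHom_of_algHom 𝒪 hres ψ
  refine ⟨φ, ⟨hlocal φ, ?_⟩, ?_⟩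
  · -- existence
    have hc : Cont (mapRep (φ : U.R →+* A) U.r) := Cont.mapRep hrU _ (hlocal φ)
    have h1 := baseChangeAlong_toAdic_isEquiv (φ : U.R →+* A) (hlocal φ) U.r hrU hc
    have h2 : (toAdic (mapRep (φ : U.R →+* A) U.r) hc).IsEquiv (toAdic rA hrA) :=
      (toAdic_isEquiv_iff _ _ hc hrA).mpr hφ
    exact isEquiv_trans h1 (isEquiv_trans h2 (isEquiv_symm heA))
  · -- uniqueness
    rintro ψ ⟨hψ, hψe⟩
    apply hφuniq
    have hc : Cont (mapRep (ψ : U.R →+* A) U.r) := Cont.mapRep hrU _ hψ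
    have h1 := baseChangeAlong_toAdic_isEquiv (ψ : U.R →+* A) hψ U.r hrU hc
    have h2 : (toAdic (mapRep (ψ : U.R →+* A) U.r) hc).IsEquiv (toAdic rA hrA) :=
      isEquiv_trans (isEquiv_symm h1) (isEquiv_trans hψe heA)
    exact (toAdic_isEquiv_iff _ _ hc hrA).mp h2

end

end Fermat.Agent.S53
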