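import Fermat.Agent.S53.Defs
import Fermat.Agent.S53_helper59.Burnside

set_option autoImplicit false

/-!
# S53 task B: Burnside for absolutely irreducible two dimensional representations
-/

namespace Fermat.Agent.S53

/-- Burnside: the operators of an absolutely irreducible residual representation span the whole
endomorphism algebra. -/
theorem span_range_eq_top_of_isAbsolutelyIrreducible {k : Type} [Field k]
    (ρbar : ResidualGaloisRep k) (habs : ρbar.IsAbsolutelyIrreducible) :
    Submodule.span k (Set.range ρbar.ρ) = (⊤ : Submodule k (Module.End k ρbar.V)) :=
  Fermat.Agent.S53_helper59.span_range_eq_top_of_isAbsolutelyIrreducible ρbar habs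

end Fermat.Agent.S53
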