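import Fermat.Agent.S53.Defs
import Fermat.Agent.S53_helper39.Descent
import Fermat.Agent.S53_helper60.Carayol

set_option autoImplicit false

/-!
# S53 task D: Carayol existence (descent of coefficients to a subring containing the traces)
-/

namespace Fermat.Agent.S53

open IsLocalRing

section Aux

variable {A : Type*} [CommRing A]

/-- Entries of a product of matrices with entries in a subring lie in the subring. -/
theorem mul_entries_mem_subring (A₀ : Subring A) (X Y : M2 A)
    (hX : ∀ i j, X i j ∈ A₀) (hY : ∀ i j, Y i j ∈ A₀) : ∀ i j, (X * Y) i j ∈ A₀ := by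
  intro i j
  rw [Matrix.mul_apply]
  exact A₀.sum_mem fun k _ => A₀.mul_mem (hX i k) (hY k j)

/-- Entries of a product with one factor having entries in an ideal lie in the ideal. -/
theorem mul_entries_mem_ideal_left (I : Ideal A) (X Y : M2 A)
    (hX : ∀ i j, X i j ∈ I) : ∀ i j, (X * Y) i j ∈ I := by
  intro i j
  rw [Matrix.mul_apply]
  exact I.sum_mem fun k _ => I.mul_mem_right _ (hX i k)

/-- In a local ring with nilpotent maximal ideal, a subring surjecting onto the residue field is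
closed under inverses of units. -/
theorem subring_inv_mem_of_nilpotent [IsLocalRing A] (hnil : ∃ n, maximalIdeal A ^ n = ⊥)
    (A₀ : Subring A) (hA₀ : ∀ a : A, ∃ a₀ ∈ A₀, a - a₀ ∈ maximalIdeal A) :
    ∀ a ∈ A₀, IsUnit a → ∃ b ∈ A₀, a * b = 1 := by
  intro a ha hu
  obtain ⟨N, hN⟩ := hnil
  obtain ⟨u, rfl⟩ := hu
  obtain ⟨b₀, hb₀, hb₀m⟩ := hA₀ ((u⁻¹ : Aˣ) : A)
  set n : A := 1 - (u : A) * b₀ with hn
  have hnm : n ∈ maximalIdeal A := by
    have : n = (u : A) * (((u⁻¹ : Aˣ) : A) - b₀) := by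
      rw [hn, mul_sub, Units.mul_inv]
    rw [this]
    exact Ideal.mul_mem_left _ _ hb₀m
  have hnA₀ : n ∈ A₀ := A₀.sub_mem A₀.one_mem (A₀.mul_mem ha hb₀)
  have hnN : n ^ N = 0 := by
    have : n ^ N ∈ maximalIdeal A ^ N := Ideal.pow_mem_pow hnm N
    rwa [hN, Ideal.mem_bot] at this
  refine ⟨b₀ * ∑ i ∈ Finset.range N, n ^ i,
    A₀.mul_mem hb₀ (A₀.sum_mem fun i _ => A₀.pow_mem hnA₀ i), ?_⟩
  have h1 : (u : A) * b₀ = 1 - n := by rw [hn]; ring
  rw [← mul_assoc, h1, mul_neg_geom_sum, hnN, sub_zero]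

end Aux

/-- Let `A` be a local ring with nilpotent maximal ideal, `A₀` a subring surjecting onto the
residue field, `r` a matrix valued hom whose reduction spans `M2 (ResidueField A)` and whose
traces lie in `A₀`.  Then `r` is conjugate, by a matrix `M ≡ 1`, to a hom with entries in `A₀`. -/
theorem exists_conj_mem_subring {G : Type*} [Monoid G] {A : Type*} [CommRing A] [IsLocalRing A]
    (hnil : ∃ n, maximalIdeal A ^ n = ⊥)
    (A₀ : Subring A) (hA₀ : ∀ a : A, ∃ a₀ ∈ A₀, a - a₀ ∈ maximalIdeal A)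
    (r : G →* M2 A)
    (hspan : Submodule.span (ResidueField A) (Set.range fun g => (r g).map (residue A)) = ⊤)
    (htr : ∀ g, (r g).trace ∈ A₀) :
    ∃ M : (M2 A)ˣ, (∀ i j, (M : M2 A) i j - (1 : M2 A) i j ∈ maximalIdeal A) ∧
      ∀ g i j, (((M⁻¹ : (M2 A)ˣ) : M2 A) * r g * (M : M2 A)) i j ∈ A₀ := by
  classical
  have hinv := subring_inv_mem_of_nilpotent hnil A₀ hA₀
  have hspanA : Submodule.span A (Set.range r) = ⊤ :=
    Fermat.Agent.S53_helper60.span_range_eq_top_of_residue r hspan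
  obtain ⟨P, Q, hPQ, hQP, hent⟩ :=
    Fermat.Agent.S53_helper39.descent_monoidHom hnil A₀ hinv hA₀ r hspanA htr
  -- a matrix with entries in `A₀` congruent to `Q`
  choose n hnmem hncong using fun ij : Fin 2 × Fin 2 => hA₀ (Q ij.1 ij.2)
  set N : M2 A := Matrix.of fun i j => n (i, j) with hNdef
  have hNmem : ∀ i j, N i j ∈ A₀ := fun i j => hnmem (i, j)
  have hQN : ∀ i j, (Q - N) i j ∈ maximalIdeal A := fun i j => hncong (i, j)
  -- `det N` is a unit lying in `A₀`
  have hdetPQ : P.det * Q.det = 1 := by rw [← Matrix.det_mul, hPQ, Matrix.det_one]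
  have hdetQ : IsUnit Q.det := .of_mul_eq_one _ (by rw [mul_comm]; exact hdetPQ)
  have hdetN_mem : N.det ∈ A₀ := by
    rw [Matrix.det_fin_two]
    exact A₀.sub_mem (A₀.mul_mem (hNmem _ _) (hNmem _ _)) (A₀.mul_mem (hNmem _ _) (hNmem _ _))
  have hdet_sub : Q.det - N.det ∈ maximalIdeal A := by
    have e : Q.det - N.det =
        (Q - N) 0 0 * Q 1 1 + N 0 0 * (Q - N) 1 1 - ((Q - N) 0 1 * Q 1 0 + N 0 1 * (Q - N) 1 0) := by
      rw [Matrix.det_fin_two, Matrix.det_fin_two]
      simp only [Matrix.sub_apply]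
      ring
    rw [e]
    refine Ideal.sub_mem _ (Ideal.add_mem _ ?_ ?_) (Ideal.add_mem _ ?_ ?_)
    · exact Ideal.mul_mem_right _ _ (hQN 0 0)
    · exact Ideal.mul_mem_left _ _ (hQN 1 1)
    · exact Ideal.mul_mem_right _ _ (hQN 0 1)
    · exact Ideal.mul_mem_left _ _ (hQN 1 0)
  have hdetN : IsUnit N.det := by
    by_contra hnu
    have hm : N.det ∈ maximalIdeal A := (mem_maximalIdeal _).mpr hnu
    have : Q.det ∈ maximalIdeal A := by
      have := Ideal.add_mem _ hdet_sub hm
      rwa [sub_add_cancel] at this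
    exact ((mem_maximalIdeal _).mp this) hdetQ
  obtain ⟨d, hdmem, hd⟩ := hinv N.det hdetN_mem hdetN
  set N' : M2 A := d • N.adjugate with hN'def
  have hN'mem : ∀ i j, N' i j ∈ A₀ := by
    intro i j
    rw [hN'def, Matrix.smul_apply, smul_eq_mul, Matrix.adjugate_fin_two]
    refine A₀.mul_mem hdmem ?_
    fin_cases i <;> fin_cases j <;> simp <;> exact hNmem _ _
  have hNN' : N * N' = 1 := by
    rw [hN'def, Matrix.mul_smul, Matrix.mul_adjugate, smul_smul, mul_comm, hd, one_smul]
  have hN'N : N' * N = 1 := by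
    rw [hN'def, Matrix.smul_mul, Matrix.adjugate_mul, smul_smul, mul_comm, hd, one_smul]
  -- the conjugating unit
  have h1 : (Q * N') * (N * P) = 1 := by
    calc (Q * N') * (N * P) = Q * (N' * N) * P := by simp only [mul_assoc]
      _ = 1 := by rw [hN'N, mul_one, hQP]
  have h2 : (N * P) * (Q * N') = 1 := by
    calc (N * P) * (Q * N') = N * (P * Q) * N' := by simp only [mul_assoc]
      _ = 1 := by rw [hPQ, mul_one, hNN']
  refine ⟨⟨Q * N', N * P, h1, h2⟩, ?_, ?_⟩
  · intro i j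
    have e : Q * N' - 1 = (Q - N) * N' := by rw [sub_mul, hNN']
    show (Q * N') i j - (1 : M2 A) i j ∈ maximalIdeal A
    rw [← Matrix.sub_apply, e]
    exact mul_entries_mem_ideal_left _ _ _ hQN i j
  · intro g i j
    show (N * P * r g * (Q * N')) i j ∈ A₀
    have e : N * P * r g * (Q * N') = N * (P * r g * Q) * N' := by simp only [mul_assoc]
    rw [e]
    exact mul_entries_mem_subring A₀ _ _
      (mul_entries_mem_subring A₀ _ _ hNmem (fun i j => hent g i j)) hN'mem i j

end Fermat.Agent.S53
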