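import Fermat.Agent.S53.Defs
import Fermat.Agent.S53_helper60.Carayol

set_option autoImplicit false

/-!
# S53 task C2: Carayol uniqueness (equal traces imply conjugate)
-/

namespace Fermat.Agent.S53

open IsLocalRing

/-- Two matrix valued homs over a local ring `A` with the same reduction, whose reduction spans
`M2 (ResidueField A)`, and with the same traces, are conjugate. -/
theorem conj_of_trace_eq {G : Type*} [Monoid G] {A : Type*} [CommRing A] [IsLocalRing A]
    (r r' : G →* M2 A)
    (hspan : Submodule.span (ResidueField A) (Set.range fun g => (r g).map (residue A)) = ⊤)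
    (hres : ∀ g, (r g).map (residue A) = (r' g).map (residue A))
    (htr : ∀ g, (r g).trace = (r' g).trace) :
    ∃ M : (M2 A)ˣ, ∀ g, r' g = (M : M2 A) * r g * ((M⁻¹ : (M2 A)ˣ) : M2 A) := by
  have hspan' : Submodule.span (ResidueField A)
      (Set.range fun g => (r' g).map (residue A)) = ⊤ := by
    have : (fun g => (r' g).map (residue A)) = fun g => (r g).map (residue A) := by
      funext g
      exact (hres g).symm
    rw [this]
    exact hspan
  have h1 : Submodule.span A (Set.range r) = ⊤ :=
    Fermat.Agent.S53_helper60.span_range_eq_top_of_residue r hspan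
  have h2 : Submodule.span A (Set.range r') = ⊤ :=
    Fermat.Agent.S53_helper60.span_range_eq_top_of_residue r' hspan'
  obtain ⟨P, hP⟩ := Fermat.Agent.S53_helper60.exists_conj_of_trace_eq r r' h1 h2 htr
  refine ⟨P, fun g => ?_⟩
  rw [hP g, mul_assoc, Units.mul_inv, mul_one]

end Fermat.Agent.S53
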