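import Fermat.Agent.S53.Defs
import Fermat.Agent.S53_helper15.LimitRing
import Mathlib.RingTheory.Ideal.Quotient.Index

set_option autoImplicit false

/-!
# S53 task F: a compactness (Chevalley type) lemma for filters of open ideals
-/

namespace Fermat.Agent.S53

open IsLocalRing

namespace Chevalley

variable {P : Type*} [CommRing P] [IsLocalRing P]

/-- In a noetherian local ring with finite residue field only finitely many ideals contain a
given power of the maximal ideal. -/
theorem finite_setOf_pow_le [IsNoetherianRing P] [Finite (ResidueField P)] (N : ℕ) :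
    {L : Ideal P | maximalIdeal P ^ N ≤ L}.Finite := by
  have hres : Finite (P ⧸ maximalIdeal P) := ‹Finite (ResidueField P)›
  have hfin : Finite (P ⧸ maximalIdeal P ^ N) :=
    Ideal.finite_quotient_pow (IsNoetherian.noetherian (maximalIdeal P)) N
  refine Set.Finite.of_finite_image
    (f := Ideal.map (Ideal.Quotient.mk (maximalIdeal P ^ N))) (Set.toFinite _) ?_
  intro L hL L' hL' h
  have h' := congrArg (Ideal.comap (Ideal.Quotient.mk (maximalIdeal P ^ N))) h
  rw [Ideal.comap_map_of_surjective' _ Ideal.Quotient.mk_surjective,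
    Ideal.comap_map_of_surjective' _ Ideal.Quotient.mk_surjective, Ideal.mk_ker] at h'
  rwa [sup_eq_left.mpr hL, sup_eq_left.mpr hL'] at h'

omit [IsLocalRing P] in
/-- A finite nonempty set of ideals which is closed under pairwise intersections contains
its infimum. -/
theorem sInf_mem_of_finite {T : Set (Ideal P)} (hfin : T.Finite) (hne : T.Nonempty)
    (hinf : ∀ x ∈ T, ∀ y ∈ T, x ⊓ y ∈ T) : sInf T ∈ T := by
  classical
  have hne' : hfin.toFinset.Nonempty := (Set.Finite.toFinset_nonempty hfin).mpr hne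
  have h1 : sInf T = hfin.toFinset.inf' hne' id := by
    rw [Finset.inf'_eq_inf, Finset.inf_id_eq_sInf, Set.Finite.coe_toFinset]
  rw [h1]
  exact Finset.inf'_mem T hinf _ hne' id fun i hi => (Set.Finite.mem_toFinset hfin).mp hi

end Chevalley

/-- Let `P` be a complete noetherian local ring with finite residue field and `𝓘` a nonempty
family of proper open ideals, stable under pairwise intersections and under passing to larger
proper ideals.  Then for every `n ≠ 0` the ideal `sInf 𝓘 ⊔ m ^ n` belongs to `𝓘`. -/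
theorem sInf_sup_pow_mem {P : Type*} [CommRing P] [IsLocalRing P] [IsNoetherianRing P]
    [IsAdicComplete (maximalIdeal P) P] [Finite (ResidueField P)]
    (𝓘 : Set (Ideal P)) (hne : 𝓘.Nonempty)
    (hproper : ∀ I ∈ 𝓘, I ≠ ⊤)
    (hinf : ∀ I ∈ 𝓘, ∀ I' ∈ 𝓘, I ⊓ I' ∈ 𝓘)
    (hup : ∀ I ∈ 𝓘, ∀ I' : Ideal P, I ≤ I' → I' ≠ ⊤ → I' ∈ 𝓘)
    (hopen : ∀ I ∈ 𝓘, ∃ n, maximalIdeal P ^ n ≤ I)
    (n : ℕ) (hn : n ≠ 0) :
    sInf 𝓘 ⊔ maximalIdeal P ^ n ∈ 𝓘 := by
  classical
  obtain ⟨I₀, hI₀⟩ := hne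
  have hle_m : ∀ I ∈ 𝓘, I ≤ maximalIdeal P := fun I hI => le_maximalIdeal (hproper I hI)
  have hm_top : maximalIdeal P ≠ ⊤ := (maximalIdeal.isMaximal P).ne_top
  have hsup_mem : ∀ I ∈ 𝓘, ∀ N, N ≠ 0 → I ⊔ maximalIdeal P ^ N ∈ 𝓘 := by
    intro I hI N hN
    refine hup I hI _ le_sup_left ?_
    have hle : I ⊔ maximalIdeal P ^ N ≤ maximalIdeal P :=
      sup_le (hle_m I hI) (Ideal.pow_le_self hN)
    intro h
    rw [h] at hle
    exact hm_top (top_le_iff.mp hle)
  let T : ℕ → Set (Ideal P) := fun N => {L | L ∈ 𝓘 ∧ maximalIdeal P ^ N ≤ L}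
  let K : ℕ → Ideal P := fun N => sInf (T N)
  have hTfin : ∀ N, (T N).Finite := fun N =>
    (Chevalley.finite_setOf_pow_le N).subset fun L hL => hL.2
  have hTne : ∀ N, N ≠ 0 → (T N).Nonempty := fun N hN =>
    ⟨I₀ ⊔ maximalIdeal P ^ N, hsup_mem I₀ hI₀ N hN, le_sup_right⟩
  have hKmem : ∀ N, N ≠ 0 → K N ∈ T N := by
    intro N hN
    refine Chevalley.sInf_mem_of_finite (hTfin N) (hTne N hN) ?_
    intro x hx y hy
    exact ⟨hinf x hx.1 y hy.1, le_inf hx.2 hy.2⟩
  have hanti : Antitone K := by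
    intro N N' hNN'
    refine sInf_le_sInf ?_
    intro L hL
    exact ⟨hL.1, (Ideal.pow_le_pow_right hNN').trans hL.2⟩
  have hpow : ∀ N, maximalIdeal P ^ N ≤ K N := fun N => le_sInf fun L hL => hL.2
  have hstab : ∀ N, K N ≤ K (N + 1) ⊔ maximalIdeal P ^ N := by
    intro N
    rcases Nat.eq_zero_or_pos N with rfl | hN
    · simp
    · have h1 : K (N + 1) ∈ 𝓘 := (hKmem (N + 1) (Nat.succ_ne_zero N)).1
      exact sInf_le ⟨hsup_mem _ h1 N hN.ne', le_sup_right⟩
  have hiInf : (⨅ i, K i) = sInf 𝓘 := by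
    apply le_antisymm
    · refine le_sInf fun I hI => ?_
      obtain ⟨a, ha⟩ := hopen I hI
      exact (iInf_le K a).trans (sInf_le ⟨hI, ha⟩)
    · refine le_iInf fun N => ?_
      exact sInf_le_sInf fun L hL => hL.1
  have key := Fermat.Agent.S53_helper15.eq_iInf_sup_pow (maximalIdeal P) K hanti hpow hstab n
  rw [hiInf] at key
  rw [← key]
  exact (hKmem n hn).1

end Fermat.Agent.S53
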