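import Fermat.Agent.S53.Defs

set_option autoImplicit false

/-!
# S53 task G: gluing a compatible (up to conjugacy) system of matrix valued homs
-/

namespace Fermat.Agent.S53

open IsLocalRing

namespace Glue

variable {R : Type*} [CommRing R] [IsLocalRing R]

/-- the monoid hom on matrices induced by the quotient map -/
noncomputable def mkM (n : ℕ) : M2 R →* M2 (R ⧸ maximalIdeal R ^ n) :=
  ((RingHom.mapMatrix (Ideal.Quotient.mk (maximalIdeal R ^ n)) :
    M2 R →+* M2 (R ⧸ maximalIdeal R ^ n)) : M2 R →* M2 (R ⧸ maximalIdeal R ^ n))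

/-- the monoid hom on matrices induced by the transition map -/
noncomputable def facM (n : ℕ) :
    M2 (R ⧸ maximalIdeal R ^ (n + 1)) →* M2 (R ⧸ maximalIdeal R ^ n) :=
  ((RingHom.mapMatrix (Ideal.Quotient.factor (Ideal.pow_le_pow_right n.le_succ)) :
    M2 (R ⧸ maximalIdeal R ^ (n + 1)) →+* M2 (R ⧸ maximalIdeal R ^ n)) :
      M2 (R ⧸ maximalIdeal R ^ (n + 1)) →* M2 (R ⧸ maximalIdeal R ^ n))

lemma mkM_apply (n : ℕ) (A : M2 R) :
    mkM n A = A.map (Ideal.Quotient.mk (maximalIdeal R ^ n)) := rfl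

lemma facM_apply (n : ℕ) (A : M2 (R ⧸ maximalIdeal R ^ (n + 1))) :
    facM n A = A.map (Ideal.Quotient.factor (Ideal.pow_le_pow_right n.le_succ)) := rfl

lemma facM_mkM (n : ℕ) (A : M2 R) : facM n (mkM (n + 1) A) = mkM n A := by
  ext i j
  simp [facM_apply, mkM_apply]

lemma facM_comp_mkM (n : ℕ) : (facM n).comp (mkM (n + 1)) = mkM (R := R) n :=
  MonoidHom.ext (facM_mkM n)

/-- an element of `R` whose image in `R ⧸ m ^ n` (`n ≥ 1`) is a unit is a unit -/
lemma isUnit_of_isUnit_mk {n : ℕ} (hn : n ≠ 0) {x : R}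
    (hx : IsUnit (Ideal.Quotient.mk (maximalIdeal R ^ n) x)) : IsUnit x := by
  by_contra hnx
  have hxm : x ∈ maximalIdeal R := (mem_maximalIdeal x).mpr hnx
  obtain ⟨y', hy'⟩ := hx.exists_right_inv
  obtain ⟨y, rfl⟩ := Ideal.Quotient.mk_surjective y'
  rw [← map_mul, ← map_one (Ideal.Quotient.mk (maximalIdeal R ^ n)), Ideal.Quotient.eq] at hy'
  have h1 : x * y - 1 ∈ maximalIdeal R := Ideal.pow_le_self hn hy'
  have h2 : x * y ∈ maximalIdeal R := Ideal.mul_mem_right _ _ hxm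
  have h3 : (1 : R) ∈ maximalIdeal R := by
    have h4 : x * y - (x * y - 1) = 1 := by ring
    rw [← h4]
    exact Ideal.sub_mem _ h2 h1
  exact (Ideal.ne_top_iff_one _).mp (maximalIdeal.isMaximal R).ne_top h3

/-- units of `M2 (R ⧸ m ^ n)` lift to units of `M2 R` -/
lemma exists_unit_lift (n : ℕ) (U : (M2 (R ⧸ maximalIdeal R ^ n))ˣ) :
    ∃ L : (M2 R)ˣ, Units.map (mkM n) L = U := by
  rcases Nat.eq_zero_or_pos n with rfl | hn
  · have : Subsingleton (R ⧸ maximalIdeal R ^ 0) := by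
      rw [pow_zero, Ideal.one_eq_top]
      exact Ideal.Quotient.subsingleton_iff.mpr rfl
    refine ⟨1, ?_⟩
    ext i j
    exact Subsingleton.elim _ _
  · have hsurj : ∀ a : R ⧸ maximalIdeal R ^ n, ∃ b : R,
        Ideal.Quotient.mk (maximalIdeal R ^ n) b = a := Ideal.Quotient.mk_surjective
    choose l hl using hsurj
    let L0 : M2 R := Matrix.of fun i j => l ((U : M2 _) i j)
    have hL0 : mkM n L0 = (U : M2 _) := by
      ext i j
      simp [mkM_apply, L0, hl]
    have hdet : IsUnit L0.det := by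
      apply isUnit_of_isUnit_mk hn.ne'
      have : Ideal.Quotient.mk (maximalIdeal R ^ n) L0.det = ((U : M2 _)).det := by
        rw [RingHom.map_det, ← hL0]
        rfl
      rw [this]
      exact (Matrix.isUnit_iff_isUnit_det _).mp U.isUnit
    have hunit : IsUnit L0 := (Matrix.isUnit_iff_isUnit_det _).mpr hdet
    refine ⟨hunit.unit, ?_⟩
    ext i j
    simp only [Units.coe_map, IsUnit.unit_spec]
    rw [hL0]

/-- conjugation by a unit, as a monoid hom -/
def conjHom {M : Type*} [Monoid M] (u : Mˣ) : M →* M where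
  toFun x := (u : M) * x * ((u⁻¹ : Mˣ) : M)
  map_one' := by simp
  map_mul' x y := by
    simp only [mul_assoc]
    rw [Units.inv_mul_cancel_left]

@[simp] lemma conjHom_apply {M : Type*} [Monoid M] (u : Mˣ) (x : M) :
    conjHom u x = (u : M) * x * ((u⁻¹ : Mˣ) : M) := rfl

section Rec

variable (M : ∀ n : ℕ, (M2 (R ⧸ maximalIdeal R ^ n))ˣ)

/-- the correcting matrices, chosen in `GL₂(R)` -/
noncomputable def P : ℕ → (M2 R)ˣ
  | 0 => 1
  | n + 1 => Classical.choose (exists_unit_lift n (Units.map (mkM n) (P n) * (M n)⁻¹))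

lemma P_succ (n : ℕ) :
    Units.map (mkM n) (P M (n + 1)) = Units.map (mkM n) (P M n) * (M n)⁻¹ :=
  Classical.choose_spec (exists_unit_lift n (Units.map (mkM n) (P M n) * (M n)⁻¹))

/-- the correcting matrices in `GL₂(R ⧸ m ^ n)` -/
noncomputable def Nn (n : ℕ) : (M2 (R ⧸ maximalIdeal R ^ n))ˣ := Units.map (mkM n) (P M n)

lemma map_facM_Nn (n : ℕ) : Units.map (facM n) (Nn M (n + 1)) = Nn M n * (M n)⁻¹ := by
  rw [Nn, Nn, ← P_succ, ← facM_comp_mkM, Units.map_comp]
  rfl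

end Rec


section Main

variable {G : Type*} [Monoid G]
  (r : ∀ n : ℕ, G →* M2 (R ⧸ maximalIdeal R ^ n))
  (M : ∀ n : ℕ, (M2 (R ⧸ maximalIdeal R ^ n))ˣ)

/-- the strictly compatible system -/
noncomputable def sys (n : ℕ) : G →* M2 (R ⧸ maximalIdeal R ^ n) :=
  (conjHom (Nn M n)).comp (r n)

lemma sys_apply (n : ℕ) (g : G) :
    sys r M n g = (Nn M n : M2 _) * r n g * (((Nn M n)⁻¹ : (M2 _)ˣ) : M2 _) := rfl

lemma facM_sys (hM : ∀ n g, facM n (r (n + 1) g) = (M n : M2 _) * r n g * (((M n)⁻¹ : (M2 _)ˣ) : M2 _))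
    (n : ℕ) (g : G) : facM n (sys r M (n + 1) g) = sys r M n g := by
  have h1 : facM n (Nn M (n + 1) : M2 _) =
      ((Nn M n * (M n)⁻¹ : (M2 (R ⧸ maximalIdeal R ^ n))ˣ) : M2 (R ⧸ maximalIdeal R ^ n)) := by
    rw [← map_facM_Nn]; rfl
  have h2 : facM n (((Nn M (n + 1))⁻¹ : (M2 _)ˣ) : M2 _) =
      (((Nn M n * (M n)⁻¹)⁻¹ : (M2 (R ⧸ maximalIdeal R ^ n))ˣ) : M2 (R ⧸ maximalIdeal R ^ n)) := by
    rw [← map_facM_Nn, ← map_inv]; rfl
  rw [sys_apply, sys_apply, map_mul, map_mul, h1, h2, hM, mul_inv_rev, inv_inv]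
  simp only [Units.val_mul, mul_assoc, Units.inv_mul_cancel_left]

lemma factor_sys_apply
    (hM : ∀ n g, facM n (r (n + 1) g) = (M n : M2 _) * r n g * (((M n)⁻¹ : (M2 _)ˣ) : M2 _))
    (n : ℕ) (g : G) (i j : Fin 2) :
    Ideal.Quotient.factor (Ideal.pow_le_pow_right n.le_succ) (sys r M (n + 1) g i j) =
      sys r M n g i j := by
  rw [← facM_sys r M hM n g]
  rfl

/-- the compatible family of ring homs out of a polynomial ring -/
noncomputable def polyHom (n : ℕ) :
    MvPolynomial (G × Fin 2 × Fin 2) ℤ →+* R ⧸ maximalIdeal R ^ n :=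
  MvPolynomial.eval₂Hom (Int.castRingHom _) fun p => sys r M n p.1 p.2.1 p.2.2

lemma polyHom_X (n : ℕ) (g : G) (i j : Fin 2) :
    polyHom r M n (MvPolynomial.X (g, i, j)) = sys r M n g i j := by
  simp [polyHom]

lemma polyHom_compat
    (hM : ∀ n g, facM n (r (n + 1) g) = (M n : M2 _) * r n g * (((M n)⁻¹ : (M2 _)ˣ) : M2 _))
    (n : ℕ) :
    (Ideal.Quotient.factorPow (maximalIdeal R) n.le_succ).comp (polyHom r M (n + 1)) =
      polyHom r M n := by
  apply MvPolynomial.ringHom_ext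
  · intro a
    simp [polyHom]
  · rintro ⟨g, i, j⟩
    rw [RingHom.comp_apply, polyHom_X, polyHom_X]
    exact factor_sys_apply r M hM n g i j

end Main


section Final

variable [IsAdicComplete (maximalIdeal R) R] {G : Type*} [Monoid G]
  (r : ∀ n : ℕ, G →* M2 (R ⧸ maximalIdeal R ^ n))
  (M : ∀ n : ℕ, (M2 (R ⧸ maximalIdeal R ^ n))ˣ)
  (hM : ∀ n g, facM n (r (n + 1) g) = (M n : M2 _) * r n g * (((M n)⁻¹ : (M2 _)ˣ) : M2 _))

omit [IsLocalRing R] in
/-- Hausdorff: two elements agreeing modulo all powers of `I` are equal -/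
lemma eq_of_forall_mk_eq (I : Ideal R) [IsHausdorff I R] {x y : R}
    (h : ∀ n, Ideal.Quotient.mk (I ^ n) x = Ideal.Quotient.mk (I ^ n) y) : x = y := by
  rw [IsHausdorff.eq_iff_smodEq (I := I)]
  intro n
  rw [SModEq.sub_mem, smul_eq_mul, Ideal.mul_top, ← Ideal.Quotient.eq]
  exact h n

/-- Hausdorff: matrices agreeing modulo all powers are equal -/
lemma eq_of_mkM_eq {A B : M2 R} (h : ∀ n, mkM n A = mkM n B) : A = B := by
  ext i j
  apply eq_of_forall_mk_eq (maximalIdeal R)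
  intro n
  exact congrFun (congrFun (h n) i) j

/-- the lift of the compatible family of ring homs -/
noncomputable def liftHom : MvPolynomial (G × Fin 2 × Fin 2) ℤ →+* R :=
  IsAdicComplete.StrictMono.liftRingHom (maximalIdeal R) strictMono_id (polyHom r M)
    (fun {n} => polyHom_compat r M hM n)

lemma mk_liftHom (n : ℕ) (x : MvPolynomial (G × Fin 2 × Fin 2) ℤ) :
    Ideal.Quotient.mk (maximalIdeal R ^ n) (liftHom r M hM x) = polyHom r M n x :=
  IsAdicComplete.StrictMono.mk_liftRingHom (maximalIdeal R) strictMono_id (polyHom r M)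
    (fun {n} => polyHom_compat r M hM n) (n := n) x

/-- the glued map, as a function -/
noncomputable def glued (g : G) : M2 R :=
  Matrix.of fun i j => liftHom r M hM (MvPolynomial.X (g, i, j))

lemma mkM_glued (n : ℕ) (g : G) : mkM n (glued r M hM g) = sys r M n g := by
  ext i j
  rw [mkM_apply, Matrix.map_apply, glued, Matrix.of_apply, mk_liftHom, polyHom_X]

/-- the glued monoid hom -/
noncomputable def gluedHom : G →* M2 R where
  toFun := glued r M hM
  map_one' := eq_of_mkM_eq fun n => by rw [mkM_glued, map_one, map_one]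
  map_mul' g h := eq_of_mkM_eq fun n => by
    rw [map_mul, mkM_glued, mkM_glued, mkM_glued, map_mul]

lemma mkM_gluedHom (n : ℕ) (g : G) : mkM n (gluedHom r M hM g) = sys r M n g :=
  mkM_glued r M hM n g

end Final

end Glue

/-- Let `R` be a complete local ring and `r n : G →* M2 (R ⧸ m ^ n)` a family of homs such that
`r (n+1)` reduces to a conjugate of `r n`.  Then there is `r∞ : G →* M2 R` whose reduction modulo
`m ^ n` is conjugate to `r n` for all `n`. -/
theorem exists_glue {G : Type*} [Monoid G] {R : Type*} [CommRing R] [IsLocalRing R]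
    [IsAdicComplete (maximalIdeal R) R]
    (r : ∀ n : ℕ, G →* M2 (R ⧸ maximalIdeal R ^ n))
    (hcompat : ∀ n : ℕ, ∃ M : (M2 (R ⧸ maximalIdeal R ^ n))ˣ, ∀ g,
      (r (n + 1) g).map (Ideal.Quotient.factor (Ideal.pow_le_pow_right n.le_succ)) =
        (M : M2 _) * r n g * ((M⁻¹ : (M2 _)ˣ) : M2 _)) :
    ∃ r' : G →* M2 R, ∀ n : ℕ, ∃ M : (M2 (R ⧸ maximalIdeal R ^ n))ˣ, ∀ g,
      (r' g).map (Ideal.Quotient.mk (maximalIdeal R ^ n)) =
        (M : M2 _) * r n g * ((M⁻¹ : (M2 _)ˣ) : M2 _) := by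
  choose M hM using hcompat
  have hM' : ∀ n g, Glue.facM n (r (n + 1) g) =
      (M n : M2 _) * r n g * (((M n)⁻¹ : (M2 _)ˣ) : M2 _) := fun n g => hM n g
  exact ⟨Glue.gluedHom r M hM', fun n => ⟨Glue.Nn M n, fun g => Glue.mkM_gluedHom r M hM' n g⟩⟩

end Fermat.Agent.S53
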