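import Fermat.Agent.S53.PSBasic
import Fermat.Agent.S53.PSComplete
import Fermat.Agent.S53.PSEval

/-! # S53: aggregator for the power series tasks (E) -/
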