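import Fermat.Agent.S53.Problem
import Fermat.Agent.S53_helper84.TestAlg
import Fermat.Agent.S53_helper84.CotangentCount

set_option autoImplicit false
set_option linter.style.haveILetI false
set_option linter.unusedSectionVars false

/-!
# S53 task H-fib: the fibre product of two test algebras over the residue field
-/

namespace Fermat.Agent.S53

open IsLocalRing GaloisRep

noncomputable section

variable (𝒪 : Type) [CommRing 𝒪] [IsLocalRing 𝒪]

variable (A B : Type) [CommRing A] [IsLocalRing A] [Algebra 𝒪 A]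
  [CommRing B] [IsLocalRing B] [Algebra 𝒪 B]

/-- H2. The fibre product `A ×ₖ B` over the residue field, as a subalgebra of `A × B`. -/
def fibProd : Subalgebra 𝒪 (A × B) where
  carrier := {x | ∃ o : 𝒪, x.1 - algebraMap 𝒪 A o ∈ maximalIdeal A ∧
    x.2 - algebraMap 𝒪 B o ∈ maximalIdeal B}
  mul_mem' := by
    rintro x y ⟨o, ho1, ho2⟩ ⟨o', ho1', ho2'⟩
    refine ⟨o * o', ?_, ?_⟩
    · have : (x * y).1 - algebraMap 𝒪 A (o * o') =
          (x.1 - algebraMap 𝒪 A o) * y.1 + algebraMap 𝒪 A o * (y.1 - algebraMap 𝒪 A o') := by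
        rw [map_mul, Prod.fst_mul]; ring
      rw [this]
      exact Ideal.add_mem _ (Ideal.mul_mem_right _ _ ho1) (Ideal.mul_mem_left _ _ ho1')
    · have : (x * y).2 - algebraMap 𝒪 B (o * o') =
          (x.2 - algebraMap 𝒪 B o) * y.2 + algebraMap 𝒪 B o * (y.2 - algebraMap 𝒪 B o') := by
        rw [map_mul, Prod.snd_mul]; ring
      rw [this]
      exact Ideal.add_mem _ (Ideal.mul_mem_right _ _ ho2) (Ideal.mul_mem_left _ _ ho2')
  one_mem' := ⟨1, by simp, by simp⟩
  add_mem' := by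
    rintro x y ⟨o, ho1, ho2⟩ ⟨o', ho1', ho2'⟩
    refine ⟨o + o', ?_, ?_⟩
    · have : (x + y).1 - algebraMap 𝒪 A (o + o') =
          (x.1 - algebraMap 𝒪 A o) + (y.1 - algebraMap 𝒪 A o') := by
        rw [map_add, Prod.fst_add]; ring
      rw [this]
      exact Ideal.add_mem _ ho1 ho1'
    · have : (x + y).2 - algebraMap 𝒪 B (o + o') =
          (x.2 - algebraMap 𝒪 B o) + (y.2 - algebraMap 𝒪 B o') := by
        rw [map_add, Prod.snd_add]; ring
      rw [this]
      exact Ideal.add_mem _ ho2 ho2'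
  zero_mem' := ⟨0, by simp, by simp⟩
  algebraMap_mem' := fun r => ⟨r, by simp [Prod.algebraMap_apply], by simp [Prod.algebraMap_apply]⟩

/-- first projection -/
def fibProd.fst : fibProd 𝒪 A B →ₐ[𝒪] A := (AlgHom.fst 𝒪 A B).comp (fibProd 𝒪 A B).val

/-- second projection -/
def fibProd.snd : fibProd 𝒪 A B →ₐ[𝒪] B := (AlgHom.snd 𝒪 A B).comp (fibProd 𝒪 A B).val

variable {A B}

omit [IsLocalRing 𝒪] in
theorem mem_fibProd_iff (x : A × B) :
    x ∈ fibProd 𝒪 A B ↔ ∃ o : 𝒪, x.1 - algebraMap 𝒪 A o ∈ maximalIdeal A ∧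
      x.2 - algebraMap 𝒪 B o ∈ maximalIdeal B := Iff.rfl

omit [IsLocalRing 𝒪] in
@[simp] theorem fibProd.fst_apply (x : fibProd 𝒪 A B) : fibProd.fst 𝒪 A B x = (x : A × B).1 := rfl

omit [IsLocalRing 𝒪] in
@[simp] theorem fibProd.snd_apply (x : fibProd 𝒪 A B) : fibProd.snd 𝒪 A B x = (x : A × B).2 := rfl

omit [IsLocalRing 𝒪] in
/-- For an element of the fibre product, the first component is a unit iff the second is. -/
theorem fibProd.isUnit_fst_iff_isUnit_snd (hA : IsLocalHom (algebraMap 𝒪 A))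
    (hB : IsLocalHom (algebraMap 𝒪 B)) {x : A × B} (hx : x ∈ fibProd 𝒪 A B) :
    IsUnit x.1 ↔ IsUnit x.2 := by
  obtain ⟨o, ho1, ho2⟩ := hx
  have key1 : IsUnit x.1 ↔ IsUnit o := by
    constructor
    · intro h
      apply hA.map_nonunit
      by_contra hcon
      have h2 : algebraMap 𝒪 A o ∈ maximalIdeal A := hcon
      have : x.1 ∈ maximalIdeal A := by
        have := Ideal.add_mem _ ho1 h2
        simpa using this
      exact this h
    · intro h
      by_contra hcon
      have h2 : x.1 ∈ maximalIdeal A := hcon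
      have : algebraMap 𝒪 A o ∈ maximalIdeal A := by
        have := Ideal.sub_mem _ h2 ho1
        simpa using this
      exact this (h.map _)
  have key2 : IsUnit x.2 ↔ IsUnit o := by
    constructor
    · intro h
      apply hB.map_nonunit
      by_contra hcon
      have h2 : algebraMap 𝒪 B o ∈ maximalIdeal B := hcon
      have : x.2 ∈ maximalIdeal B := by
        have := Ideal.add_mem _ ho2 h2
        simpa using this
      exact this h
    · intro h
      by_contra hcon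
      have h2 : x.2 ∈ maximalIdeal B := hcon
      have : algebraMap 𝒪 B o ∈ maximalIdeal B := by
        have := Ideal.sub_mem _ h2 ho2
        simpa using this
      exact this (h.map _)
  rw [key1, key2]

omit [IsLocalRing 𝒪] in
/-- An element of the fibre product is a unit iff its first component is. -/
theorem fibProd.isUnit_iff_isUnit_fst (hA : IsLocalHom (algebraMap 𝒪 A))
    (hB : IsLocalHom (algebraMap 𝒪 B)) (x : fibProd 𝒪 A B) :
    IsUnit x ↔ IsUnit (x : A × B).1 := by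
  constructor
  · intro h
    exact h.map (fibProd.fst 𝒪 A B)
  · intro h1
    have h2 : IsUnit (x : A × B).2 := (fibProd.isUnit_fst_iff_isUnit_snd 𝒪 hA hB x.2).mp h1
    obtain ⟨o, ho1, ho2⟩ := x.2
    obtain ⟨u1, hu1⟩ := h1
    obtain ⟨u2, hu2⟩ := h2
    -- `o` is a unit
    have ho : IsUnit o := by
      apply hA.map_nonunit
      by_contra hcon
      have h2 : algebraMap 𝒪 A o ∈ maximalIdeal A := hcon
      have : (x : A × B).1 ∈ maximalIdeal A := by
        have := Ideal.add_mem _ ho1 h2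
        simpa using this
      exact this ⟨u1, hu1⟩
    obtain ⟨v, hv⟩ := ho
    have hmem : (((u1⁻¹ : Aˣ) : A), ((u2⁻¹ : Bˣ) : B)) ∈ fibProd 𝒪 A B := by
      refine ⟨((v⁻¹ : 𝒪ˣ) : 𝒪), ?_, ?_⟩
      · have hvA : algebraMap 𝒪 A ((v⁻¹ : 𝒪ˣ) : 𝒪) * algebraMap 𝒪 A o = 1 := by
          rw [← map_mul, ← hv, Units.inv_mul, map_one]
        have : ((u1⁻¹ : Aˣ) : A) - algebraMap 𝒪 A ((v⁻¹ : 𝒪ˣ) : 𝒪) =
            -(((u1⁻¹ : Aˣ) : A) * algebraMap 𝒪 A ((v⁻¹ : 𝒪ˣ) : 𝒪)) *
              ((x : A × B).1 - algebraMap 𝒪 A o) := by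
          rw [← hu1]
          have e1 : ((u1⁻¹ : Aˣ) : A) * (u1 : A) = 1 := Units.inv_mul u1
          linear_combination (algebraMap 𝒪 A ((v⁻¹ : 𝒪ˣ) : 𝒪)) * e1 -
            ((u1⁻¹ : Aˣ) : A) * hvA
        rw [this]
        exact Ideal.mul_mem_left _ _ ho1
      · have hvB : algebraMap 𝒪 B ((v⁻¹ : 𝒪ˣ) : 𝒪) * algebraMap 𝒪 B o = 1 := by
          rw [← map_mul, ← hv, Units.inv_mul, map_one]
        have : ((u2⁻¹ : Bˣ) : B) - algebraMap 𝒪 B ((v⁻¹ : 𝒪ˣ) : 𝒪) =
            -(((u2⁻¹ : Bˣ) : B) * algebraMap 𝒪 B ((v⁻¹ : 𝒪ˣ) : 𝒪)) *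
              ((x : A × B).2 - algebraMap 𝒪 B o) := by
          rw [← hu2]
          have e1 : ((u2⁻¹ : Bˣ) : B) * (u2 : B) = 1 := Units.inv_mul u2
          linear_combination (algebraMap 𝒪 B ((v⁻¹ : 𝒪ˣ) : 𝒪)) * e1 -
            ((u2⁻¹ : Bˣ) : B) * hvB
        rw [this]
        exact Ideal.mul_mem_left _ _ ho2
    refine IsUnit.of_mul_eq_one ⟨_, hmem⟩ (Subtype.ext ?_)
    rw [Subalgebra.coe_mul, Subalgebra.coe_one]
    refine Prod.ext ?_ ?_
    · simp only [Prod.fst_mul, Prod.fst_one]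
      rw [← hu1]; exact Units.mul_inv u1
    · simp only [Prod.snd_mul, Prod.snd_one]
      rw [← hu2]; exact Units.mul_inv u2

theorem isLocalRing_fibProd (hA : IsArtinianTestAlgebra 𝒪 A) (hB : IsArtinianTestAlgebra 𝒪 B) :
    IsLocalRing (fibProd 𝒪 A B) := by
  haveI : Nontrivial (fibProd 𝒪 A B) := ⟨⟨0, 1, fun h => by
    have := congrArg (fun z : fibProd 𝒪 A B => (z : A × B).1) h
    simp at this⟩⟩
  refine IsLocalRing.of_nonunits_add ?_
  intro a b ha hb
  rw [mem_nonunits_iff, fibProd.isUnit_iff_isUnit_fst 𝒪 hA.isLocalHom hB.isLocalHom] at ha hb ⊢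
  have ha' : (a : A × B).1 ∈ maximalIdeal A := ha
  have hb' : (b : A × B).1 ∈ maximalIdeal A := hb
  have : ((a + b : fibProd 𝒪 A B) : A × B).1 ∈ maximalIdeal A := by
    rw [Subalgebra.coe_add, Prod.fst_add]
    exact Ideal.add_mem _ ha' hb'
  exact this

theorem mem_maximalIdeal_fibProd_iff (hA : IsArtinianTestAlgebra 𝒪 A)
    (hB : IsArtinianTestAlgebra 𝒪 B) [IsLocalRing (fibProd 𝒪 A B)] (x : fibProd 𝒪 A B) :
    x ∈ maximalIdeal (fibProd 𝒪 A B) ↔
      (x : A × B).1 ∈ maximalIdeal A ∧ (x : A × B).2 ∈ maximalIdeal B := by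
  rw [mem_maximalIdeal, mem_nonunits_iff,
    fibProd.isUnit_iff_isUnit_fst 𝒪 hA.isLocalHom hB.isLocalHom, mem_maximalIdeal,
    mem_nonunits_iff, mem_maximalIdeal, mem_nonunits_iff,
    ← fibProd.isUnit_fst_iff_isUnit_snd 𝒪 hA.isLocalHom hB.isLocalHom x.2, and_self]

theorem isArtinianTestAlgebra_fibProd [Finite (ResidueField 𝒪)]
    (hA : IsArtinianTestAlgebra 𝒪 A) (hB : IsArtinianTestAlgebra 𝒪 B)
    [IsLocalRing (fibProd 𝒪 A B)] : IsArtinianTestAlgebra 𝒪 (fibProd 𝒪 A B) := by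
  haveI : Finite A := Fermat.Agent.S53_helper84.finite_of_isArtinianTestAlgebra hA
  haveI : Finite B := Fermat.Agent.S53_helper84.finite_of_isArtinianTestAlgebra hB
  haveI : Finite (fibProd 𝒪 A B) := Finite.of_injective (fun x : fibProd 𝒪 A B => (x : A × B))
    Subtype.val_injective
  refine ⟨⟨?_⟩, ?_, inferInstance⟩
  · intro o ho
    have h1 : IsUnit (algebraMap 𝒪 A o) := by
      have := ho.map (fibProd.fst 𝒪 A B)
      rwa [AlgHom.commutes] at this
    exact hA.isLocalHom.map_nonunit o h1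
  · intro y
    obtain ⟨x, rfl⟩ := residue_surjective y
    obtain ⟨o, ho1, ho2⟩ := x.2
    refine ⟨o, ?_⟩
    rw [Function.comp_apply, ← sub_eq_zero, ← map_sub, residue_eq_zero_iff,
      mem_maximalIdeal_fibProd_iff 𝒪 hA hB]
    refine ⟨?_, ?_⟩
    · have : ((algebraMap 𝒪 (fibProd 𝒪 A B) o - x : fibProd 𝒪 A B) : A × B).1 =
          -((x : A × B).1 - algebraMap 𝒪 A o) := by
        rw [Subalgebra.coe_sub, Subalgebra.coe_algebraMap, Prod.fst_sub, Prod.algebraMap_apply]
        ring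
      rw [this]
      exact Ideal.neg_mem_iff _ |>.mpr ho1
    · have : ((algebraMap 𝒪 (fibProd 𝒪 A B) o - x : fibProd 𝒪 A B) : A × B).2 =
          -((x : A × B).2 - algebraMap 𝒪 B o) := by
        rw [Subalgebra.coe_sub, Subalgebra.coe_algebraMap, Prod.snd_sub, Prod.algebraMap_apply]
        ring
      rw [this]
      exact Ideal.neg_mem_iff _ |>.mpr ho2

/-- The residue field of `𝒪` is a test algebra (local copy, used for the fibre product axiom). -/
theorem fibProd.isArtinianTestAlgebra_residueField_aux :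
    IsArtinianTestAlgebra 𝒪 (ResidueField 𝒪) := by
  refine ⟨?_, ?_, inferInstance⟩
  · show IsLocalHom (residue 𝒪)
    infer_instance
  · intro y
    obtain ⟨z, rfl⟩ := residue_surjective y
    obtain ⟨o, rfl⟩ := residue_surjective z
    exact ⟨o, rfl⟩

/-- The projection of a test algebra to the residue field of `𝒪`, as an algebra hom. -/
def fibProd.projAlg (hA : IsArtinianTestAlgebra 𝒪 A) : A →ₐ[𝒪] ResidueField 𝒪 :=
  { Fermat.Agent.S53_helper84.projK hA.isLocalHom hA.residue_surjective with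
    commutes' := fun o =>
      Fermat.Agent.S53_helper84.projK_algebraMap hA.isLocalHom hA.residue_surjective o }

theorem fibProd.projAlg_eq_zero_iff (hA : IsArtinianTestAlgebra 𝒪 A) (a : A) :
    fibProd.projAlg 𝒪 hA a = 0 ↔ a ∈ maximalIdeal A :=
  Fermat.Agent.S53_helper84.projK_eq_zero_iff hA.isLocalHom hA.residue_surjective a

/-- The fibre product axiom of a matrix deformation problem, specialised to `A ×ₖ B`. -/
theorem MatrixDefProblem.dm_fibProd [Finite (ResidueField 𝒪)] (P : MatrixDefProblem 𝒪)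
    (hA : IsArtinianTestAlgebra 𝒪 A) (hB : IsArtinianTestAlgebra 𝒪 B)
    [IsLocalRing (fibProd 𝒪 A B)] (r : GQ →* M2 (fibProd 𝒪 A B))
    (h1 : P.Dm (mapRep (fibProd.fst 𝒪 A B : fibProd 𝒪 A B →+* A) r))
    (h2 : P.Dm (mapRep (fibProd.snd 𝒪 A B : fibProd 𝒪 A B →+* B) r)) : P.Dm r := by
  refine P.fibre hA hB (fibProd.isArtinianTestAlgebra_residueField_aux 𝒪)
    (isArtinianTestAlgebra_fibProd 𝒪 hA hB) (fibProd.projAlg 𝒪 hA) (fibProd.projAlg 𝒪 hB)
    (fibProd.fst 𝒪 A B) (fibProd.snd 𝒪 A B) ?_ ?_ ?_ r h1 h2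
  · -- compatibility over the residue field
    apply AlgHom.ext
    intro x
    obtain ⟨o, ho1, ho2⟩ := x.2
    simp only [AlgHom.comp_apply, fibProd.fst_apply, fibProd.snd_apply]
    have e1 : fibProd.projAlg 𝒪 hA (x : A × B).1 = algebraMap 𝒪 (ResidueField 𝒪) o := by
      rw [← sub_eq_zero, ← AlgHom.commutes (fibProd.projAlg 𝒪 hA) o, ← map_sub,
        fibProd.projAlg_eq_zero_iff]
      exact ho1
    have e2 : fibProd.projAlg 𝒪 hB (x : A × B).2 = algebraMap 𝒪 (ResidueField 𝒪) o := by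
      rw [← sub_eq_zero, ← AlgHom.commutes (fibProd.projAlg 𝒪 hB) o, ← map_sub,
        fibProd.projAlg_eq_zero_iff]
      exact ho2
    rw [e1, e2]
  · -- joint injectivity
    intro x y hxy
    simp only [fibProd.fst_apply, fibProd.snd_apply, Prod.mk.injEq] at hxy
    exact Subtype.ext (Prod.ext hxy.1 hxy.2)
  · -- gluing
    intro a b hab
    obtain ⟨o, ho⟩ := residue_surjective (fibProd.projAlg 𝒪 hA a)
    have hoA : a - algebraMap 𝒪 A o ∈ maximalIdeal A := by
      rw [← fibProd.projAlg_eq_zero_iff 𝒪 hA, map_sub, AlgHom.commutes, sub_eq_zero]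
      exact ho.symm
    have hoB : b - algebraMap 𝒪 B o ∈ maximalIdeal B := by
      rw [← fibProd.projAlg_eq_zero_iff 𝒪 hB, map_sub, AlgHom.commutes, sub_eq_zero, ← hab]
      exact ho.symm
    exact ⟨⟨(a, b), o, hoA, hoB⟩, rfl, rfl⟩

end

end Fermat.Agent.S53
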