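import Fermat.Agent.S53.Problem
import Fermat.Agent.S53_helper39.TangentSep
import Fermat.Agent.S53_helper84.TestAlg

set_option autoImplicit false

/-!
# S53 task H-sep: separation of proper subalgebras by maps to the dual numbers
-/

namespace Fermat.Agent.S53

open IsLocalRing GaloisRep

noncomputable section

variable (𝒪 : Type) [CommRing 𝒪] [IsLocalRing 𝒪]

variable {A : Type} [CommRing A] [IsLocalRing A] [Algebra 𝒪 A]

/-- The algebra structure `dualNumberAlgebra 𝒪` is (propositionally) the global instance. -/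
theorem dualNumberAlgebra_eq_inst :
    dualNumberAlgebra 𝒪 = TrivSqZeroExt.algebra' 𝒪 (ResidueField 𝒪) (ResidueField 𝒪) := by
  apply Algebra.algebra_ext
  intro r
  rfl

/-- Separation, for an arbitrary algebra structure equal to the global one. -/
theorem exists_algHom_dualNumber_ne_aux (hA : IsArtinianTestAlgebra 𝒪 A)
    (S : Subalgebra 𝒪 A) (hS : S ≠ ⊤) (inst : Algebra 𝒪 (DualNumber (ResidueField 𝒪)))
    (hinst : inst = TrivSqZeroExt.algebra' 𝒪 (ResidueField 𝒪) (ResidueField 𝒪)) :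
    ∃ f g : A →ₐ[𝒪] DualNumber (ResidueField 𝒪), f ≠ g ∧ ∀ a ∈ S, f a = g a := by
  subst hinst
  have := hA.isLocalHom
  obtain ⟨φ, hφS, b, hb⟩ := Fermat.Agent.S53_helper39.exists_algHom_dualNumber_of_ne_top
    hA.residue_surjective (Fermat.Agent.S53_helper84.exists_maximalIdeal_pow_eq_bot hA) S hS
  refine ⟨φ, ((TrivSqZeroExt.inlAlgHom 𝒪 (ResidueField 𝒪) (ResidueField 𝒪)).comp
    (TrivSqZeroExt.fstHom 𝒪 (ResidueField 𝒪) (ResidueField 𝒪))).comp φ, ?_, ?_⟩
  · intro h
    apply hb
    have := congrArg (fun ψ : A →ₐ[𝒪] DualNumber (ResidueField 𝒪) => (ψ b).snd) h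
    simpa using this
  · intro a ha
    apply TrivSqZeroExt.ext
    · simp
    · simpa using hφS a ha

/-- H5. Separation: a proper subalgebra of a test algebra is contained in the equalizer of two
distinct algebra homs to the dual numbers. -/
theorem exists_algHom_dualNumber_ne [Finite (ResidueField 𝒪)] (hA : IsArtinianTestAlgebra 𝒪 A)
    (S : Subalgebra 𝒪 A) (hS : S ≠ ⊤) :
    letI := dualNumberAlgebra 𝒪
    ∃ f g : A →ₐ[𝒪] DualNumber (ResidueField 𝒪), f ≠ g ∧ ∀ a ∈ S, f a = g a :=
  exists_algHom_dualNumber_ne_aux 𝒪 hA S hS (dualNumberAlgebra 𝒪) (dualNumberAlgebra_eq_inst 𝒪)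

end

end Fermat.Agent.S53
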