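import Fermat.Agent.S53.Problem
import Fermat.Agent.S53_helper84.TestAlg

set_option autoImplicit false

/-!
# S53 task H-sub: subalgebras of artinian test algebras
-/

namespace Fermat.Agent.S53

open IsLocalRing GaloisRep

noncomputable section

variable (𝒪 : Type) [CommRing 𝒪] [IsLocalRing 𝒪]

variable {A : Type} [CommRing A] [IsLocalRing A] [Algebra 𝒪 A]

namespace TestAlgSub

/-- The package delivered by `S53_helper84.isArtinianTestAlgebra_of_injective` for the inclusion
of a subalgebra. -/
theorem package [Finite (ResidueField 𝒪)] (hA : IsArtinianTestAlgebra 𝒪 A)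
    (S : Subalgebra 𝒪 A) :
    ∃ _ : IsLocalRing S, IsArtinianTestAlgebra 𝒪 S ∧ IsLocalHom (S.val : S →+* A) := by
  have : Finite A := Fermat.Agent.S53_helper84.finite_of_isArtinianTestAlgebra hA
  exact Fermat.Agent.S53_helper84.isArtinianTestAlgebra_of_injective hA S.val
    Subtype.val_injective

end TestAlgSub

/-- H3a. Subalgebras of test algebras are local. -/
theorem isLocalRing_subalgebra [Finite (ResidueField 𝒪)] (hA : IsArtinianTestAlgebra 𝒪 A)
    (S : Subalgebra 𝒪 A) : IsLocalRing S := by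
  obtain ⟨h, -, -⟩ := TestAlgSub.package 𝒪 hA S
  exact h

/-- H3b. -/
theorem mem_maximalIdeal_subalgebra_iff [Finite (ResidueField 𝒪)]
    (hA : IsArtinianTestAlgebra 𝒪 A) (S : Subalgebra 𝒪 A) [IsLocalRing S] (x : S) :
    x ∈ maximalIdeal S ↔ (x : A) ∈ maximalIdeal A := by
  obtain ⟨_, -, hloc⟩ := TestAlgSub.package 𝒪 hA S
  rw [mem_maximalIdeal, mem_maximalIdeal, mem_nonunits_iff, mem_nonunits_iff, not_iff_not]
  constructor
  · intro hx
    exact hx.map (S.val : S →+* A)
  · intro hx
    exact hloc.map_nonunit x hx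

/-- H3c. Subalgebras of test algebras are test algebras. -/
theorem isArtinianTestAlgebra_subalgebra [Finite (ResidueField 𝒪)]
    (hA : IsArtinianTestAlgebra 𝒪 A) (S : Subalgebra 𝒪 A) [IsLocalRing S] :
    IsArtinianTestAlgebra 𝒪 S := by
  obtain ⟨_, h, -⟩ := TestAlgSub.package 𝒪 hA S
  exact h

end

end Fermat.Agent.S53
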