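import Fermat.Agent.S53.TestAlgBasic
import Fermat.Agent.S53.TestAlgSub
import Fermat.Agent.S53.TestAlgSep
import Fermat.Agent.S53.FibProd

/-! # S53: aggregator for the test algebra tasks (H) -/
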