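import Fermat.Agent.S53.Problem
import Fermat.Agent.S53.TestAlg
import Fermat.Agent.S53.PowerSeries
import Fermat.Agent.S53.Chevalley
import Fermat.Agent.S53.Glue
import Fermat.Agent.S53.CarayolUniq
import Fermat.Agent.S53.CarayolDescent

set_option autoImplicit false

/-!
# S53 task J: the core construction (existence of a universal matrix deformation)
-/

namespace Fermat.Agent.S53

open IsLocalRing GaloisRep

/-- The core theorem: every matrix deformation problem has a universal solution. -/
theorem nonempty_univMatrixDef (𝒪 : Type) [CommRing 𝒪] [IsLocalRing 𝒪] [IsNoetherianRing 𝒪]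
    [IsAdicComplete (maximalIdeal 𝒪) 𝒪] [Finite (ResidueField 𝒪)] (P : MatrixDefProblem 𝒪) :
    Nonempty (UnivMatrixDef P) := by
  sorry

end Fermat.Agent.S53
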