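import Fermat.Agent.S53.Problem
import Fermat.Agent.S53.ProRep.Basic

set_option autoImplicit false

/-!
# S53 core: the polynomial ring on trace variables and the family of "good" ideals
-/

namespace Fermat.Agent.S53

open IsLocalRing GaloisRep

noncomputable section

variable (𝒪 : Type) [CommRing 𝒪] [IsLocalRing 𝒪]

/-- The polynomial ring over `𝒪` with one variable `X g` for each `g : GQ` (the universal trace
of `g`). -/
abbrev Lam : Type := MvPolynomial GQ 𝒪

/-- The `𝒪`-algebra hom `Lam 𝒪 → A` sending `X g` to the trace of `r g`. -/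
def trHom {A : Type} [CommRing A] [Algebra 𝒪 A] (r : GQ →* M2 A) : Lam 𝒪 →ₐ[𝒪] A :=
  MvPolynomial.aeval fun g => (r g).trace

omit [IsLocalRing 𝒪] in
@[simp] lemma trHom_X {A : Type} [CommRing A] [Algebra 𝒪 A] (r : GQ →* M2 A) (g : GQ) :
    trHom 𝒪 r (MvPolynomial.X g) = (r g).trace := by
  simp [trHom]

omit [IsLocalRing 𝒪] in
lemma trHom_comp {A B : Type} [CommRing A] [Algebra 𝒪 A] [CommRing B] [Algebra 𝒪 B]
    (φ : A →ₐ[𝒪] B) (r : GQ →* M2 A) :
    φ.comp (trHom 𝒪 r) = trHom 𝒪 (mapRep (φ : A →+* B) r) := by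
  apply MvPolynomial.algHom_ext
  intro g
  simp only [AlgHom.comp_apply, trHom_X, mapRep_apply]
  rw [Matrix.trace, Matrix.trace, map_sum]
  rfl

omit [IsLocalRing 𝒪] in
/-- Two `𝒪`-algebra homs out of `Lam 𝒪` agreeing on the variables are equal. -/
lemma lam_algHom_ext {A : Type} [CommRing A] [Algebra 𝒪 A] {f g : Lam 𝒪 →ₐ[𝒪] A}
    (h : ∀ σ, f (MvPolynomial.X σ) = g (MvPolynomial.X σ)) : f = g :=
  MvPolynomial.algHom_ext h

variable {𝒪}

/-- The family of ideals `I` of `Lam 𝒪` such that `Lam 𝒪 ⧸ I` is an artinian test algebra carrying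
a deformation of type `P` whose traces are the classes of the variables. -/
def Fam (P : MatrixDefProblem 𝒪) : Set (Ideal (Lam 𝒪)) :=
  {I | ∃ _ : IsLocalRing (Lam 𝒪 ⧸ I), IsArtinianTestAlgebra 𝒪 (Lam 𝒪 ⧸ I) ∧
    ∃ r : GQ →* M2 (Lam 𝒪 ⧸ I), P.Dm r ∧ IsLift 𝒪 P.rbar r ∧
      ∀ g, (r g).trace = Ideal.Quotient.mk I (MvPolynomial.X g)}

/-- The maximal ideal of `Lam 𝒪`: the kernel of the trace hom of `rbar`. -/
def famMax (P : MatrixDefProblem 𝒪) : Ideal (Lam 𝒪) := RingHom.ker (trHom 𝒪 P.rbar)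

end

end Fermat.Agent.S53
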