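import Fermat.Agent.S53.CoreKer
import Fermat.Agent.S53.FibProd

set_option autoImplicit false

/-!
# S53 core K3a: the family of good ideals is stable under intersection
-/

namespace Fermat.Agent.S53

open IsLocalRing GaloisRep

noncomputable section

variable {𝒪 : Type} [CommRing 𝒪] [IsLocalRing 𝒪]

/-- K3a. -/
theorem Fam.inf_mem [Finite (ResidueField 𝒪)] (P : MatrixDefProblem 𝒪) {I J : Ideal (Lam 𝒪)}
    (hI : I ∈ Fam P) (hJ : J ∈ Fam P) : I ⊓ J ∈ Fam P := by
  sorry

end

end Fermat.Agent.S53
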