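import Fermat.Agent.S53.DictResidual

set_option autoImplicit false

/-!
# S53: basic lemmas on `IsLift`
-/

namespace Fermat.Agent.S53

open IsLocalRing

variable (𝒪 : Type) [CommRing 𝒪] [IsLocalRing 𝒪]

section

variable {A B : Type} [CommRing A] [IsLocalRing A] [Algebra 𝒪 A]
  [CommRing B] [IsLocalRing B] [Algebra 𝒪 B]

variable {𝒪}

/-- `IsLift` only depends on the reduction modulo the maximal ideal. -/
theorem IsLift.of_map_residue_eq {rbar : GQ →* M2 (ResidueField 𝒪)} {r r' : GQ →* M2 A}
    (h : IsLift 𝒪 rbar r) (hrr' : ∀ σ, (r σ).map (residue A) = (r' σ).map (residue A)) :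
    IsLift 𝒪 rbar r' := by
  intro σ i j
  obtain ⟨o, ho, hmem⟩ := h σ i j
  refine ⟨o, ho, ?_⟩
  have := congrFun (congrFun (hrr' σ) i) j
  rw [Matrix.map_apply, Matrix.map_apply] at this
  rw [← residue_eq_zero_iff, map_sub, ← this, ← map_sub, residue_eq_zero_iff]
  exact hmem

/-- Two lifts of the same `rbar` have the same reduction. -/
theorem IsLift.map_residue_eq [IsLocalHom (algebraMap 𝒪 A)] {rbar : GQ →* M2 (ResidueField 𝒪)}
    {r r' : GQ →* M2 A} (h : IsLift 𝒪 rbar r) (h' : IsLift 𝒪 rbar r') (σ : GQ) :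
    (r σ).map (residue A) = (r' σ).map (residue A) := by
  rw [(isLift_iff 𝒪 rbar r).mp h σ, (isLift_iff 𝒪 rbar r').mp h' σ]

/-- Push forward of a lift along a local algebra hom is a lift. -/
theorem IsLift.map {rbar : GQ →* M2 (ResidueField 𝒪)} {r : GQ →* M2 A}
    (h : IsLift 𝒪 rbar r) (φ : A →ₐ[𝒪] B) (hφ : IsLocalHom (φ : A →+* B)) :
    IsLift 𝒪 rbar (mapRep (φ : A →+* B) r) := by
  intro σ i j
  obtain ⟨o, ho, hmem⟩ := h σ i j
  refine ⟨o, ho, ?_⟩
  have h1 : mapRep (φ : A →+* B) r σ i j - algebraMap 𝒪 B o =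
      (φ : A →+* B) (r σ i j - algebraMap 𝒪 A o) := by
    rw [map_sub, mapRep_apply_apply]
    congr 1
    exact (φ.commutes o).symm
  rw [h1]
  exact (haveI := hφ; map_nonunit (φ : A →+* B) _ hmem)

/-- A hom whose push forward along an algebra hom is a lift is a lift. -/
theorem IsLift.of_map {rbar : GQ →* M2 (ResidueField 𝒪)} {r : GQ →* M2 A}
    (φ : A →ₐ[𝒪] B) (h : IsLift 𝒪 rbar (mapRep (φ : A →+* B) r)) :
    IsLift 𝒪 rbar r := by
  intro σ i j
  obtain ⟨o, ho, hmem⟩ := h σ i j
  refine ⟨o, ho, ?_⟩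
  have h1 : mapRep (φ : A →+* B) r σ i j - algebraMap 𝒪 B o =
      (φ : A →+* B) (r σ i j - algebraMap 𝒪 A o) := by
    rw [map_sub, mapRep_apply_apply]
    congr 1
    exact (φ.commutes o).symm
  rw [h1] at hmem
  rw [mem_maximalIdeal, mem_nonunits_iff] at hmem ⊢
  exact fun hu => hmem (hu.map _)

/-- Conjugation by a matrix congruent to `1` preserves lifts. -/
theorem IsLift.conj {rbar : GQ →* M2 (ResidueField 𝒪)} {r r' : GQ →* M2 A}
    (h : IsLift 𝒪 rbar r) (M : (M2 A)ˣ)
    (hM : ∀ i j, (M : M2 A) i j - (1 : M2 A) i j ∈ maximalIdeal A)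
    (hr' : ∀ σ, r' σ = (M : M2 A) * r σ * ((M⁻¹ : (M2 A)ˣ) : M2 A)) :
    IsLift 𝒪 rbar r' := by
  refine h.of_map_residue_eq fun σ => ?_
  have hM1 : (M : M2 A).map (residue A) = 1 := by
    ext i j
    have := hM i j
    rw [← residue_eq_zero_iff, map_sub, sub_eq_zero] at this
    rw [Matrix.map_apply, this, Matrix.one_apply, Matrix.one_apply]
    split_ifs <;> simp
  have hMinv : ((M⁻¹ : (M2 A)ˣ) : M2 A).map (residue A) = 1 := by
    have h2 : ((M : M2 A) * ((M⁻¹ : (M2 A)ˣ) : M2 A)).map (residue A) = 1 := by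
      rw [Units.mul_inv]
      ext i j
      rw [Matrix.map_apply, Matrix.one_apply, Matrix.one_apply]
      split_ifs <;> simp
    rw [Matrix.map_mul, hM1, one_mul] at h2
    exact h2
  rw [hr' σ, Matrix.map_mul, Matrix.map_mul, hM1, hMinv, one_mul, mul_one]

/-- The trace of a lift is congruent to any lift of the trace of `rbar`. -/
theorem IsLift.trace_sub_mem [IsLocalHom (algebraMap 𝒪 A)] {rbar : GQ →* M2 (ResidueField 𝒪)}
    {r : GQ →* M2 A} (h : IsLift 𝒪 rbar r) (σ : GQ) (c : 𝒪)
    (hc : residue 𝒪 c = (rbar σ).trace) :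
    (r σ).trace - algebraMap 𝒪 A c ∈ maximalIdeal A := by
  have h1 := (isLift_iff 𝒪 rbar r).mp h σ
  have h2 : residue A ((r σ).trace) = ResidueField.map (algebraMap 𝒪 A) ((rbar σ).trace) := by
    have := congrArg Matrix.trace h1
    rw [Matrix.trace, Matrix.trace] at this
    simp only [Matrix.diag_apply, Matrix.map_apply] at this
    rw [Matrix.trace, Matrix.trace, map_sum, map_sum]
    exact this
  rw [← residue_eq_zero_iff, map_sub, h2, ← hc, ResidueField.map_residue, sub_self]

end

section Span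

variable {K L : Type*} [CommRing K] [CommRing L]

/-- If a set of matrices spans `M2 K`, its entrywise image spans `M2 L`. -/
theorem span_map_eq_top (ι : K →+* L) {S : Set (M2 K)} (hS : Submodule.span K S = ⊤) :
    Submodule.span L ((fun X : M2 K => X.map ι) '' S) = ⊤ := by
  rw [eq_top_iff]
  have hsingle : ∀ i j : Fin 2, (Matrix.single i j (1 : L) : M2 L) ∈
      Submodule.span L ((fun X : M2 K => X.map ι) '' S) := by
    intro i j
    have hmem : (Matrix.single i j (1 : K) : M2 K) ∈ Submodule.span K S := by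
      rw [hS]; exact Submodule.mem_top
    have key : ∀ X ∈ Submodule.span K S,
        X.map ι ∈ Submodule.span L ((fun X : M2 K => X.map ι) '' S) := by
      intro X hX
      induction hX using Submodule.span_induction with
      | mem x hx => exact Submodule.subset_span ⟨x, hx, rfl⟩
      | zero => simp
      | add x y _ _ hx hy =>
        rw [Matrix.map_add _ (fun a b => map_add ι a b)]
        exact Submodule.add_mem _ hx hy
      | smul a x _ hx =>
        have : (a • x).map ι = ι a • x.map ι := by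
          ext i j; simp [Matrix.map_apply]
        rw [this]
        exact Submodule.smul_mem _ _ hx
    have := key _ hmem
    rwa [Matrix.map_single, map_one] at this
  intro X _
  rw [Matrix.matrix_eq_sum_single X]
  refine Submodule.sum_mem _ fun i _ => Submodule.sum_mem _ fun j _ => ?_
  have : (Matrix.single i j (X i j) : M2 L) = X i j • Matrix.single i j (1 : L) := by
    rw [Matrix.smul_single, smul_eq_mul, mul_one]
  rw [this]
  exact Submodule.smul_mem _ _ (hsingle i j)

end Span

section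

variable {𝒪}
variable {A : Type} [CommRing A] [IsLocalRing A] [Algebra 𝒪 A]

/-- The reduction of a lift spans. -/
theorem IsLift.span_map_residue [IsLocalHom (algebraMap 𝒪 A)]
    {rbar : GQ →* M2 (ResidueField 𝒪)} {r : GQ →* M2 A} (h : IsLift 𝒪 rbar r)
    (hspan : Submodule.span (ResidueField 𝒪) (Set.range rbar) = ⊤) :
    Submodule.span (ResidueField A) (Set.range fun g => (r g).map (residue A)) = ⊤ := by
  have := span_map_eq_top (ResidueField.map (algebraMap 𝒪 A)) hspan
  have hset : (Set.range fun g => (r g).map (residue A)) =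
      (fun X : M2 (ResidueField 𝒪) => X.map (ResidueField.map (algebraMap 𝒪 A))) ''
        Set.range rbar := by
    ext X
    constructor
    · rintro ⟨g, rfl⟩
      exact ⟨rbar g, ⟨g, rfl⟩, ((isLift_iff 𝒪 rbar r).mp h g).symm⟩
    · rintro ⟨_, ⟨g, rfl⟩, rfl⟩
      exact ⟨g, (isLift_iff 𝒪 rbar r).mp h g⟩
  rw [hset]
  exact this

end

end Fermat.Agent.S53
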