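import Fermat.Agent.S53.CoreDefs
import Fermat.Agent.S53.Lift
import Fermat.Agent.S53.TestAlgBasic
import Fermat.Agent.S53_helper84.CotangentCount

set_option autoImplicit false

/-!
# S53 core K3b: the tangent bound for the family of good ideals
-/

namespace Fermat.Agent.S53

open IsLocalRing GaloisRep

noncomputable section

variable {𝒪 : Type} [CommRing 𝒪] [IsLocalRing 𝒪]

namespace CoreTangent

/-- For `I ∈ Fam P` (with its witness unpacked), the class of `p` is a non-unit of `Lam 𝒪 ⧸ I`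
iff `p ∈ famMax P`. -/
theorem mk_mem_maximalIdeal_iff (P : MatrixDefProblem 𝒪) (I : Ideal (Lam 𝒪))
    [IsLocalRing (Lam 𝒪 ⧸ I)] (htest : IsArtinianTestAlgebra 𝒪 (Lam 𝒪 ⧸ I))
    (r : GQ →* M2 (Lam 𝒪 ⧸ I)) (hl : IsLift 𝒪 P.rbar r)
    (htr : ∀ g, (r g).trace = Ideal.Quotient.mk I (MvPolynomial.X g)) (p : Lam 𝒪) :
    Ideal.Quotient.mk I p ∈ maximalIdeal (Lam 𝒪 ⧸ I) ↔ p ∈ famMax P := by
  have := htest.isLocalHom
  -- the two ring homs `Lam 𝒪 → ResidueField (Lam 𝒪 ⧸ I)`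
  have key : (residue (Lam 𝒪 ⧸ I)).comp (Ideal.Quotient.mk I) =
      (ResidueField.map (algebraMap 𝒪 (Lam 𝒪 ⧸ I))).comp
        ((trHom 𝒪 P.rbar : Lam 𝒪 →ₐ[𝒪] ResidueField 𝒪) : Lam 𝒪 →+* ResidueField 𝒪) := by
    apply MvPolynomial.ringHom_ext
    · intro o
      simp only [RingHom.comp_apply, RingHom.coe_coe]
      have h1 : (trHom 𝒪 P.rbar) (MvPolynomial.C o) = residue 𝒪 o := by
        have := (trHom 𝒪 P.rbar).commutes o
        rw [MvPolynomial.algebraMap_eq] at this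
        rw [this]
        rfl
      rw [h1, ResidueField.map_residue]
      rfl
    · intro g
      simp only [RingHom.comp_apply, RingHom.coe_coe, trHom_X]
      obtain ⟨c, hc⟩ := residue_surjective (R := 𝒪) ((P.rbar g).trace)
      have h2 := hl.trace_sub_mem g c hc
      rw [htr g] at h2
      rw [← residue_eq_zero_iff, map_sub, sub_eq_zero] at h2
      rw [h2, ← hc, ResidueField.map_residue]
  have h3 := congrArg (fun φ : Lam 𝒪 →+* ResidueField (Lam 𝒪 ⧸ I) => φ p) key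
  simp only [RingHom.comp_apply, RingHom.coe_coe] at h3
  rw [← residue_eq_zero_iff, h3, famMax, RingHom.mem_ker]
  exact map_eq_zero_iff _ (RingHom.injective _)


/-- the square of the maximal ideal of a first order member of the family vanishes -/
theorem maximalIdeal_sq_eq_bot (P : MatrixDefProblem 𝒪) (I : Ideal (Lam 𝒪))
    [IsLocalRing (Lam 𝒪 ⧸ I)] (htest : IsArtinianTestAlgebra 𝒪 (Lam 𝒪 ⧸ I))
    (r : GQ →* M2 (Lam 𝒪 ⧸ I)) (hl : IsLift 𝒪 P.rbar r)
    (htr : ∀ g, (r g).trace = Ideal.Quotient.mk I (MvPolynomial.X g))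
    (hsq : famMax P ^ 2 ≤ I) : maximalIdeal (Lam 𝒪 ⧸ I) ^ 2 = ⊥ := by
  rw [eq_bot_iff, pow_two, Ideal.mul_le]
  intro x hx y hy
  obtain ⟨p, rfl⟩ := Ideal.Quotient.mk_surjective x
  obtain ⟨q, rfl⟩ := Ideal.Quotient.mk_surjective y
  rw [mk_mem_maximalIdeal_iff P I htest r hl htr] at hx hy
  rw [Ideal.mem_bot, ← map_mul, Ideal.Quotient.eq_zero_iff_mem]
  apply hsq
  rw [pow_two]
  exact Ideal.mul_mem_mul hx hy

/-- the maximal ideal of `𝒪` dies in a first order member of the family -/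
theorem algebraMap_eq_zero (I : Ideal (Lam 𝒪))
    (hm : (maximalIdeal 𝒪).map (algebraMap 𝒪 (Lam 𝒪)) ≤ I) (a : 𝒪) (ha : a ∈ maximalIdeal 𝒪) :
    algebraMap 𝒪 (Lam 𝒪 ⧸ I) a = 0 := by
  have h1 : algebraMap 𝒪 (Lam 𝒪 ⧸ I) a = Ideal.Quotient.mk I (algebraMap 𝒪 (Lam 𝒪) a) := rfl
  rw [h1, Ideal.Quotient.eq_zero_iff_mem]
  exact hm (Ideal.mem_map_of_mem _ ha)

omit [IsLocalRing 𝒪] in
/-- an algebra hom out of `Lam 𝒪 ⧸ I` is determined by its values on the classes of the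
variables -/
theorem algHom_ext_of_X {I : Ideal (Lam 𝒪)} {C : Type} [CommRing C] [Algebra 𝒪 C]
    {f g : (Lam 𝒪 ⧸ I) →ₐ[𝒪] C}
    (h : ∀ σ : GQ, f (Ideal.Quotient.mk I (MvPolynomial.X σ)) =
      g (Ideal.Quotient.mk I (MvPolynomial.X σ))) : f = g := by
  apply Ideal.Quotient.algHom_ext
  apply MvPolynomial.algHom_ext
  intro σ
  exact h σ

omit [IsLocalRing 𝒪] in
/-- the trace of a push forward -/
theorem trace_mapRep {A B : Type} [CommRing A] [CommRing B] (φ : A →+* B) (r : GQ →* M2 A)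
    (σ : GQ) : (mapRep φ r σ).trace = φ ((r σ).trace) := by
  rw [mapRep_apply, Matrix.trace, Matrix.trace, map_sum]
  rfl

end CoreTangent

/-- K3b. First order members of the family have bounded cardinality. -/
theorem Fam.tangent_bound [Finite (ResidueField 𝒪)] (P : MatrixDefProblem 𝒪) :
    ∃ B : ℕ, ∀ I ∈ Fam P, famMax P ^ 2 ≤ I →
      (maximalIdeal 𝒪).map (algebraMap 𝒪 (Lam 𝒪)) ≤ I → Nat.card (Lam 𝒪 ⧸ I) ≤ B := by
  -- the tangent hypothesis, for the global algebra instance on the dual numbers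
  have htan : ∃ S : Finset (GQ →* M2 (DualNumber (ResidueField 𝒪))),
      ∀ r : GQ →* M2 (DualNumber (ResidueField 𝒪)), P.Dm r → IsLift 𝒪 P.rbar r →
        ∃ s ∈ S, ∀ σ, (s σ).trace = (r σ).trace := by
    have h := P.tangent
    have e : dualNumberAlgebra 𝒪 = (inferInstance : Algebra 𝒪 (DualNumber (ResidueField 𝒪))) :=
      Fermat.Agent.S53_helper84.dualNumberAlgebra_eq 𝒪
    rw [e] at h
    exact h
  obtain ⟨S, hS⟩ := htan
  refine ⟨Nat.card (ResidueField 𝒪) ^ (2 * S.card), ?_⟩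
  rintro I ⟨hloc, htest, r, hDm, hl, htr⟩ hsq hm
  have hfin : Finite (Lam 𝒪 ⧸ I) := finite_of_isArtinianTestAlgebra 𝒪 htest
  have hdual : IsArtinianTestAlgebra 𝒪 (DualNumber (ResidueField 𝒪)) :=
    Fermat.Agent.S53_helper84.isArtinianTestAlgebra_dualNumber 𝒪
  -- the counting bound
  have h1 := Fermat.Agent.S53_helper84.card_le_of_card_algHom_dualNumber
    (B := Lam 𝒪 ⧸ I) htest.isLocalHom htest.residue_surjective
    (CoreTangent.maximalIdeal_sq_eq_bot P I htest r hl htr hsq)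
    (CoreTangent.algebraMap_eq_zero I hm)
  -- the tangent vectors inject into `S`
  have hex : ∀ f : (Lam 𝒪 ⧸ I) →ₐ[𝒪] DualNumber (ResidueField 𝒪),
      ∃ s ∈ S, ∀ σ, (s σ).trace = (mapRep (f : (Lam 𝒪 ⧸ I) →+* _) r σ).trace := by
    intro f
    refine hS _ (P.map htest hdual f r hDm) ?_
    exact hl.map f (isLocalHom_of_algHom 𝒪 hdual.residue_surjective f)
  choose Φ hΦS hΦ using hex
  have hinj : Function.Injective
      (fun f : (Lam 𝒪 ⧸ I) →ₐ[𝒪] DualNumber (ResidueField 𝒪) => (⟨Φ f, hΦS f⟩ : ↥S)) := by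
    intro f g hfg
    have hfg' : Φ f = Φ g := congrArg Subtype.val hfg
    apply CoreTangent.algHom_ext_of_X
    intro σ
    have h2 := hΦ f σ
    have h3 := hΦ g σ
    rw [CoreTangent.trace_mapRep, htr σ] at h2 h3
    rw [hfg'] at h2
    exact h2.symm.trans h3
  have h4 : Nat.card ((Lam 𝒪 ⧸ I) →ₐ[𝒪] DualNumber (ResidueField 𝒪)) ≤ S.card := by
    have hS' : Nat.card (↥S) = S.card := by
      rw [Nat.card_eq_fintype_card, Fintype.card_coe]
    exact (Nat.card_le_card_of_injective _ hinj).trans_eq hS'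
  have hk : 1 ≤ Nat.card (ResidueField 𝒪) := Nat.one_le_iff_ne_zero.mpr Nat.card_pos.ne'
  exact h1.trans (Nat.pow_le_pow_right hk (Nat.mul_le_mul_left 2 h4))

end

end Fermat.Agent.S53
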