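import Fermat.Agent.S53.CoreKer
import Fermat.Agent.S53.CoreFamInf
import Fermat.Agent.S53.CoreTangent

set_option autoImplicit false

/-!
# S53 core K3: the family of good ideals is admissible
-/

namespace Fermat.Agent.S53

open IsLocalRing GaloisRep

noncomputable section

variable {𝒪 : Type} [CommRing 𝒪] [IsLocalRing 𝒪] [Finite (ResidueField 𝒪)]
  (P : MatrixDefProblem 𝒪)

theorem famMax_isMaximal : (famMax P).IsMaximal := by
  sorry

theorem famMax_residue_surjective :
    Function.Surjective (Ideal.Quotient.mk (famMax P) ∘ algebraMap 𝒪 (Lam 𝒪)) := by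
  sorry

theorem famMax_mem : famMax P ∈ Fam P := by
  sorry

variable {P}

theorem Fam.le_famMax {I : Ideal (Lam 𝒪)} (hI : I ∈ Fam P) : I ≤ famMax P := by
  sorry

theorem Fam.exists_pow_le {I : Ideal (Lam 𝒪)} (hI : I ∈ Fam P) : ∃ n, famMax P ^ n ≤ I := by
  sorry

theorem Fam.finite_quotient {I : Ideal (Lam 𝒪)} (hI : I ∈ Fam P) : Finite (Lam 𝒪 ⧸ I) := by
  sorry

theorem Fam.mem_of_le {I J : Ideal (Lam 𝒪)} (hI : I ∈ Fam P) (hIJ : I ≤ J)
    (hJ : J ≤ famMax P) : J ∈ Fam P := by
  sorry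

variable (P)

/-- K3. -/
theorem isAdmissibleFamily_Fam :
    ProRep.IsAdmissibleFamily 𝒪 (Lam 𝒪) (famMax P) (Fam P) where
  isMaximal := famMax_isMaximal P
  residue_surjective := famMax_residue_surjective P
  le := fun _ hI => Fam.le_famMax hI
  pow_le := fun _ hI => Fam.exists_pow_le hI
  finite := fun _ hI => Fam.finite_quotient hI
  inf_mem := fun _ hI _ hJ => Fam.inf_mem P hI hJ
  mem_of_le := fun _ hI _ hIJ hJ => Fam.mem_of_le hI hIJ hJ
  max_mem := famMax_mem P
  tangent_bound := Fam.tangent_bound P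

end

end Fermat.Agent.S53
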