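import Fermat.Agent.S53.CoreDefs
import Fermat.Agent.S53.Lift
import Fermat.Agent.S53.TestAlgBasic
import Fermat.Agent.S53.CarayolDescent

set_option autoImplicit false

/-!
# S53 core K2: the kernel of the trace hom of an artinian deformation is a good ideal
-/

namespace Fermat.Agent.S53

open IsLocalRing GaloisRep

noncomputable section

variable {𝒪 : Type} [CommRing 𝒪] [IsLocalRing 𝒪]

/-- K1. Pull back a matrix valued hom along an injective ring hom containing all its entries. -/
theorem exists_mapRep_eq_of_injective {A B : Type} [CommRing A] [CommRing B] (φ : B →+* A)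
    (hφ : Function.Injective φ) (r : GQ →* M2 A) (h : ∀ σ i j, r σ i j ∈ φ.range) :
    ∃ r₀ : GQ →* M2 B, mapRep φ r₀ = r := by
  sorry

/-- K2. For an artinian deformation `r` of type `P` over `A`, the kernel of `trHom 𝒪 r` belongs
to the family `Fam P`. -/
theorem ker_trHom_mem_Fam [Finite (ResidueField 𝒪)] (P : MatrixDefProblem 𝒪)
    {A : Type} [CommRing A] [IsLocalRing A] [Algebra 𝒪 A] (hA : IsArtinianTestAlgebra 𝒪 A)
    (r : GQ →* M2 A) (hr : P.Dm r) (hl : IsLift 𝒪 P.rbar r) :
    RingHom.ker (trHom 𝒪 r) ∈ Fam P := by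
  sorry

end

end Fermat.Agent.S53
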