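import Fermat.Agent.S53.Problem
import Fermat.Agent.S53.TestAlg
import Fermat.Agent.S53.CarayolDescent

set_option autoImplicit false

/-!
# S53 task J1: a finite set of group elements whose traces generate all trace algebras
-/

namespace Fermat.Agent.S53

open IsLocalRing GaloisRep

namespace CoreSigma

/-- A finite family of functions is separated by finitely many points. -/
theorem exists_finset_separating {G Y ι : Type*} [Nonempty G] (S : Finset ι) (φ : ι → G → Y) :
    ∃ Sg : Finset G, ∀ s ∈ S, ∀ s' ∈ S,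
      (∀ σ ∈ Sg, φ s σ = φ s' σ) → ∀ σ, φ s σ = φ s' σ := by
  classical
  let g : ι × ι → G := fun p =>
    if h : ∃ σ, φ p.1 σ ≠ φ p.2 σ then h.choose else Classical.arbitrary G
  refine ⟨(S ×ˢ S).image g, fun s hs s' hs' h => ?_⟩
  by_contra hne
  have hex : ∃ σ, φ s σ ≠ φ s' σ := by
    by_contra hcon
    exact hne fun σ => by
      by_contra hσ
      exact hcon ⟨σ, hσ⟩
  have hg : g (s, s') = hex.choose := dif_pos hex
  have h1 := h (g (s, s'))
    (Finset.mem_image.mpr ⟨(s, s'), Finset.mem_product.mpr ⟨hs, hs'⟩, rfl⟩)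
  rw [hg] at h1
  exact hex.choose_spec h1

/-- Spanning sets of matrices stay spanning after extension of the field of scalars. -/
theorem span_map_eq_top {k K : Type*} [Field k] [Field K] (ι : k →+* K) {G : Type*}
    (rbar : G → M2 k) (h : Submodule.span k (Set.range rbar) = ⊤) :
    Submodule.span K (Set.range fun g => (rbar g).map ι) = ⊤ := by
  have key : ∀ X : M2 k, X.map ι ∈ Submodule.span K (Set.range fun g => (rbar g).map ι) := by
    intro X
    have hX : X ∈ Submodule.span k (Set.range rbar) := by rw [h]; trivial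
    induction hX using Submodule.span_induction with
    | mem x hx =>
      obtain ⟨g, rfl⟩ := hx
      exact Submodule.subset_span ⟨g, rfl⟩
    | zero =>
      have : (0 : M2 k).map ι = 0 := by ext i j; simp
      rw [this]
      exact Submodule.zero_mem _
    | add x y _ _ hx hy =>
      have : (x + y).map ι = x.map ι + y.map ι := by ext i j; simp
      rw [this]
      exact Submodule.add_mem _ hx hy
    | smul c x _ hx =>
      have : (c • x).map ι = ι c • x.map ι := by ext i j; simp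
      rw [this]
      exact Submodule.smul_mem _ _ hx
  rw [eq_top_iff]
  intro Y _
  rw [Matrix.matrix_eq_sum_single Y]
  refine Submodule.sum_mem _ fun i _ => Submodule.sum_mem _ fun j _ => ?_
  have : Matrix.single i j (Y i j) = Y i j • (Matrix.single i j (1 : k)).map ι := by
    ext a b
    simp [Matrix.single_apply]
  rw [this]
  exact Submodule.smul_mem _ _ (key _)

section Conj

variable {A : Type} [CommRing A]

/-- Conjugate of a matrix valued hom by `M⁻¹`. -/
noncomputable def conjRep (M : (M2 A)ˣ) (r : GQ →* M2 A) : GQ →* M2 A where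
  toFun σ := ((M⁻¹ : (M2 A)ˣ) : M2 A) * r σ * (M : M2 A)
  map_one' := by simp
  map_mul' x y := by
    simp only [map_mul]
    calc ((M⁻¹ : (M2 A)ˣ) : M2 A) * (r x * r y) * (M : M2 A)
        = ((M⁻¹ : (M2 A)ˣ) : M2 A) * r x * ((M : M2 A) * ((M⁻¹ : (M2 A)ˣ) : M2 A)) * r y *
            (M : M2 A) := by
          rw [Units.mul_inv, mul_one]; simp only [mul_assoc]
      _ = _ := by simp only [mul_assoc]

lemma conjRep_apply (M : (M2 A)ˣ) (r : GQ →* M2 A) (σ : GQ) :
    conjRep M r σ = ((M⁻¹ : (M2 A)ˣ) : M2 A) * r σ * (M : M2 A) := rfl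

lemma conj_conjRep (M : (M2 A)ˣ) (r : GQ →* M2 A) : Conj r (conjRep M r) :=
  ⟨M⁻¹, fun σ => by rw [conjRep_apply, inv_inv]⟩

lemma trace_conjRep (M : (M2 A)ˣ) (r : GQ →* M2 A) (σ : GQ) :
    (conjRep M r σ).trace = (r σ).trace :=
  (conj_conjRep M r).trace_eq σ

variable [IsLocalRing A]

lemma conj_sub_mem (M : (M2 A)ˣ)
    (hM : ∀ i j, (M : M2 A) i j - (1 : M2 A) i j ∈ maximalIdeal A) (X : M2 A) (i j : Fin 2) :
    (((M⁻¹ : (M2 A)ˣ) : M2 A) * X * (M : M2 A)) i j - X i j ∈ maximalIdeal A := by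
  let φ : M2 A →+* M2 (ResidueField A) := RingHom.mapMatrix (residue A)
  have h1 : φ (M : M2 A) = 1 := by
    ext a b
    have h := hM a b
    rw [← residue_eq_zero_iff, map_sub, sub_eq_zero] at h
    simp only [φ, RingHom.mapMatrix_apply, Matrix.map_apply, h, Matrix.one_apply]
    split_ifs <;> simp
  have h2 : φ ((M⁻¹ : (M2 A)ˣ) : M2 A) = 1 := by
    have h : φ ((M⁻¹ : (M2 A)ˣ) : M2 A) * φ (M : M2 A) = 1 := by
      rw [← map_mul, Units.inv_mul, map_one]
    rwa [h1, mul_one] at h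
  have h3 : φ (((M⁻¹ : (M2 A)ˣ) : M2 A) * X * (M : M2 A)) = φ X := by
    rw [map_mul, map_mul, h1, h2, one_mul, mul_one]
  have h4 := congrFun (congrFun h3 i) j
  simp only [φ, RingHom.mapMatrix_apply, Matrix.map_apply] at h4
  rw [← residue_eq_zero_iff, map_sub, h4, sub_self]

end Conj

section Restrict

variable {𝒪 A : Type} [CommRing 𝒪] [CommRing A] [Algebra 𝒪 A]

/-- Restrict a matrix valued hom with entries in a subalgebra. -/
noncomputable def restrictRep (S : Subalgebra 𝒪 A) (r : GQ →* M2 A) (h : ∀ σ i j, r σ i j ∈ S) :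
    GQ →* M2 S where
  toFun σ := Matrix.of fun i j => ⟨r σ i j, h σ i j⟩
  map_one' := by
    ext i j
    simp only [map_one, Matrix.of_apply, Matrix.one_apply]
    split_ifs <;> simp
  map_mul' x y := by
    ext i j
    simp [Matrix.mul_apply, Fin.sum_univ_two]

lemma restrictRep_apply_coe (S : Subalgebra 𝒪 A) (r : GQ →* M2 A) (h : ∀ σ i j, r σ i j ∈ S)
    (σ : GQ) (i j : Fin 2) : ((restrictRep S r h σ i j : S) : A) = r σ i j := rfl

lemma mapRep_restrictRep (S : Subalgebra 𝒪 A) (r : GQ →* M2 A) (h : ∀ σ i j, r σ i j ∈ S) :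
    mapRep (S.val : S →+* A) (restrictRep S r h) = r := by
  ext σ i j
  rfl

lemma coe_trace_restrictRep (S : Subalgebra 𝒪 A) (r : GQ →* M2 A) (h : ∀ σ i j, r σ i j ∈ S)
    (σ : GQ) : (((restrictRep S r h σ).trace : S) : A) = (r σ).trace := by
  simp [Matrix.trace_fin_two, restrictRep_apply_coe]

end Restrict

section Main

variable (𝒪 : Type) [CommRing 𝒪] [IsLocalRing 𝒪] [Finite (ResidueField 𝒪)]
  (P : MatrixDefProblem 𝒪)

variable {A : Type} [CommRing A] [IsLocalRing A] [Algebra 𝒪 A]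

omit [Finite (ResidueField 𝒪)] in
/-- The reduction of a lift of `rbar` spans the matrix algebra over the residue field. -/
theorem span_residue_eq_top (hA : IsArtinianTestAlgebra 𝒪 A) (r : GQ →* M2 A)
    (hLift : IsLift 𝒪 P.rbar r) :
    Submodule.span (ResidueField A) (Set.range fun g => (r g).map (residue A)) = ⊤ := by
  haveI := hA.isLocalHom
  have h := span_map_eq_top (ResidueField.map (algebraMap 𝒪 A)) (fun g => P.rbar g) P.span_top
  have heq : (fun g => (r g).map (residue A)) =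
      fun g => (P.rbar g).map (ResidueField.map (algebraMap 𝒪 A)) := by
    funext g
    ext i j
    obtain ⟨o, ho, hmem⟩ := hLift g i j
    rw [← residue_eq_zero_iff, map_sub, sub_eq_zero] at hmem
    simp only [Matrix.map_apply]
    rw [hmem, ← ho, ResidueField.map_residue]
  rw [heq]
  exact h

omit [IsLocalRing 𝒪] [Finite (ResidueField 𝒪)] in
theorem exists_sub_mem (hA : IsArtinianTestAlgebra 𝒪 A) (S : Subalgebra 𝒪 A) (a : A) :
    ∃ a₀ ∈ S.toSubring, a - a₀ ∈ maximalIdeal A := by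
  obtain ⟨o, ho⟩ := hA.residue_surjective (residue A a)
  refine ⟨algebraMap 𝒪 A o, S.algebraMap_mem o, ?_⟩
  rw [← residue_eq_zero_iff, map_sub, sub_eq_zero]
  exact ho.symm

theorem adjoin_eq
    (S : Finset (GQ →* M2 (DualNumber (ResidueField 𝒪))))
    (hS : ∀ r : GQ →* M2 (DualNumber (ResidueField 𝒪)),
      @MatrixDefProblem.Dm 𝒪 _ _ P (DualNumber (ResidueField 𝒪)) _ _ (dualNumberAlgebra 𝒪) r →
      @IsLift 𝒪 _ _ P.rbar (DualNumber (ResidueField 𝒪)) _ _ (dualNumberAlgebra 𝒪) r →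
      ∃ s ∈ S, ∀ σ, (s σ).trace = (r σ).trace)
    (Sg : Finset GQ)
    (hSg : ∀ s ∈ S, ∀ s' ∈ S, (∀ σ ∈ Sg, (s σ).trace = (s' σ).trace) →
      ∀ σ, (s σ).trace = (s' σ).trace)
    (hA : IsArtinianTestAlgebra 𝒪 A)
    (r : GQ →* M2 A) (hDm : P.Dm r) (hLift : IsLift 𝒪 P.rbar r) :
    Algebra.adjoin 𝒪 (Set.range fun g => (r g).trace) =
      Algebra.adjoin 𝒪 ((fun g => (r g).trace) '' (Sg : Set GQ)) := by
  by_contra hne
  -- the trace algebra
  let A₀ : Subalgebra 𝒪 A := Algebra.adjoin 𝒪 (Set.range fun g => (r g).trace)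
  haveI : IsLocalRing A₀ := isLocalRing_subalgebra 𝒪 hA A₀
  have hA₀t : IsArtinianTestAlgebra 𝒪 A₀ := isArtinianTestAlgebra_subalgebra 𝒪 hA A₀
  -- descent to the trace algebra
  obtain ⟨M, hM1, hMmem⟩ := exists_conj_mem_subring (exists_maximalIdeal_pow_eq_bot 𝒪 hA)
    A₀.toSubring (exists_sub_mem 𝒪 hA A₀) r (span_residue_eq_top 𝒪 P hA r hLift)
    (fun g => Algebra.subset_adjoin ⟨g, rfl⟩)
  let r' : GQ →* M2 A := conjRep M r
  have hr'mem : ∀ σ i j, r' σ i j ∈ A₀ := fun σ i j => hMmem σ i j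
  let r₀ : GQ →* M2 A₀ := restrictRep A₀ r' hr'mem
  have hmap : mapRep (A₀.val : A₀ →+* A) r₀ = r' := mapRep_restrictRep A₀ r' hr'mem
  have hDm' : P.Dm r' := P.conj hA r r' (conj_conjRep M r) hDm
  have hDm₀ : P.Dm r₀ := by
    refine P.desc hA₀t hA A₀.val Subtype.val_injective r₀ ?_
    rw [hmap]
    exact hDm'
  have hLift₀ : IsLift 𝒪 P.rbar r₀ := by
    intro σ i j
    obtain ⟨o, ho, hmem⟩ := hLift σ i j
    refine ⟨o, ho, ?_⟩
    rw [mem_maximalIdeal_subalgebra_iff 𝒪 hA A₀]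
    have h1 : ((r₀ σ i j - algebraMap 𝒪 A₀ o : A₀) : A) =
        (r' σ i j - r σ i j) + (r σ i j - algebraMap 𝒪 A o) := by
      simp only [Subalgebra.coe_sub, Subalgebra.coe_algebraMap]
      rw [show ((r₀ σ i j : A₀) : A) = r' σ i j from rfl]
      ring
    rw [h1]
    exact Ideal.add_mem _ (conj_sub_mem M hM1 (r σ) i j) hmem
  -- the traces of `r₀`
  let t : GQ → A₀ := fun σ => (r₀ σ).trace
  have ht : ∀ σ, ((t σ : A₀) : A) = (r σ).trace := fun σ => by
    rw [show ((t σ : A₀) : A) = (r' σ).trace from coe_trace_restrictRep A₀ r' hr'mem σ]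
    exact trace_conjRep M r σ
  have hval_range : A₀.val '' Set.range t = Set.range fun g => (r g).trace := by
    rw [← Set.range_comp]
    congr 1
    funext σ
    exact ht σ
  have htop : Algebra.adjoin 𝒪 (Set.range t) = ⊤ := by
    apply Subalgebra.map_injective (f := A₀.val) Subtype.val_injective
    rw [AlgHom.map_adjoin, hval_range, Algebra.map_top, Subalgebra.range_val]
  let A₁' : Subalgebra 𝒪 A₀ := Algebra.adjoin 𝒪 (t '' (Sg : Set GQ))
  have hA₁' : A₁' ≠ ⊤ := by
    intro h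
    apply hne
    have h2 := congrArg (Subalgebra.map A₀.val) h
    rw [AlgHom.map_adjoin, Algebra.map_top, Subalgebra.range_val, Set.image_image] at h2
    have h3 : (fun x => A₀.val (t x)) = fun g => (r g).trace := funext ht
    rw [h3] at h2
    exact h2.symm
  -- two different maps to the dual numbers agreeing on `A₁'`
  letI := dualNumberAlgebra 𝒪
  obtain ⟨f, g', hfg, hagree⟩ := exists_algHom_dualNumber_ne 𝒪 hA₀t A₁' hA₁'
  have hdual : IsArtinianTestAlgebra 𝒪 (DualNumber (ResidueField 𝒪)) :=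
    isArtinianTestAlgebra_dualNumber 𝒪
  have hlift_map : ∀ φ : A₀ →ₐ[𝒪] DualNumber (ResidueField 𝒪),
      IsLift 𝒪 P.rbar (mapRep (φ : A₀ →+* DualNumber (ResidueField 𝒪)) r₀) := by
    intro φ σ i j
    haveI : IsLocalHom (φ : A₀ →+* DualNumber (ResidueField 𝒪)) :=
      isLocalHom_of_algHom 𝒪 hdual.residue_surjective φ
    obtain ⟨o, ho, hmem⟩ := hLift₀ σ i j
    refine ⟨o, ho, ?_⟩
    have h1 : mapRep (φ : A₀ →+* DualNumber (ResidueField 𝒪)) r₀ σ i j -
        algebraMap 𝒪 (DualNumber (ResidueField 𝒪)) o =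
        (φ : A₀ →+* DualNumber (ResidueField 𝒪)) (r₀ σ i j - algebraMap 𝒪 A₀ o) := by
      rw [map_sub, mapRep_apply_apply]
      congr 1
      exact (φ.commutes o).symm
    rw [h1]
    rw [mem_maximalIdeal] at hmem ⊢
    exact fun hu => hmem (isUnit_of_map_unit _ _ hu)
  have htrace_map : ∀ (φ : A₀ →ₐ[𝒪] DualNumber (ResidueField 𝒪)) (σ : GQ),
      (mapRep (φ : A₀ →+* DualNumber (ResidueField 𝒪)) r₀ σ).trace = φ (t σ) := by
    intro φ σ
    simp only [t, Matrix.trace_fin_two, mapRep_apply_apply, map_add]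
    rfl
  obtain ⟨s, hs, hstr⟩ := hS _ (P.map hA₀t hdual f r₀ hDm₀) (hlift_map f)
  obtain ⟨s', hs', hstr'⟩ := hS _ (P.map hA₀t hdual g' r₀ hDm₀) (hlift_map g')
  have hall : ∀ σ, (s σ).trace = (s' σ).trace := by
    refine hSg s hs s' hs' fun σ hσ => ?_
    rw [hstr σ, hstr' σ, htrace_map, htrace_map]
    exact hagree _ (Algebra.subset_adjoin ⟨σ, hσ, rfl⟩)
  apply hfg
  refine AlgHom.ext_of_adjoin_eq_top htop ?_
  rintro _ ⟨σ, rfl⟩
  rw [← htrace_map f σ, ← htrace_map g' σ, ← hstr σ, ← hstr' σ]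
  exact hall σ

end Main

end CoreSigma

/-- Tangent finiteness gives a finite set `Sg` of group elements such that, for every artinian
deformation of type `P`, the traces of the elements of `Sg` generate the algebra generated by all
traces. -/
theorem exists_finset_trace_generators (𝒪 : Type) [CommRing 𝒪] [IsLocalRing 𝒪]
    [Finite (ResidueField 𝒪)] (P : MatrixDefProblem 𝒪) :
    ∃ Sg : Finset GQ, ∀ ⦃A : Type⦄ [CommRing A] [IsLocalRing A] [Algebra 𝒪 A],
      IsArtinianTestAlgebra 𝒪 A → ∀ r : GQ →* M2 A, P.Dm r → IsLift 𝒪 P.rbar r →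
        Algebra.adjoin 𝒪 (Set.range fun g => (r g).trace) =
          Algebra.adjoin 𝒪 ((fun g => (r g).trace) '' (Sg : Set GQ)) := by
  obtain ⟨S, hS⟩ := P.tangent
  obtain ⟨Sg, hSg⟩ := CoreSigma.exists_finset_separating S (fun s σ => (s σ).trace)
  exact ⟨Sg, fun A _ _ _ hA r hDm hLift => CoreSigma.adjoin_eq 𝒪 P S hS Sg hSg hA r hDm hLift⟩

end Fermat.Agent.S53
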