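import Fermat.Prelude.Def_GaloisRep_DeformationRingData
import Fermat.Prelude.Def_GaloisRep_DeformationCondition

set_option autoImplicit false

/-!
# S53: basic definitions (matrix form of deformations)

Everything in the S53 project is phrased with matrix valued homomorphisms
`r : GQ →* M2 A`.  The prelude structures (`GaloisRepAdic`, ...) only appear in `toAdic`
below and in the dictionary module.
-/

namespace Fermat.Agent.S53

open IsLocalRing

noncomputable section

/-- The absolute Galois group of `ℚ` (used only as an abstract group). -/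
abbrev GQ : Type := AlgebraicClosure ℚ ≃ₐ[ℚ] AlgebraicClosure ℚ

/-- Two by two matrices. -/
abbrev M2 (A : Type*) : Type _ := Matrix (Fin 2) (Fin 2) A

section Basic

variable {A B C : Type} [CommRing A] [CommRing B] [CommRing C]

/-- Entrywise push forward of a matrix valued hom along a ring hom. -/
def mapRep (φ : A →+* B) (r : GQ →* M2 A) : GQ →* M2 B :=
  ((RingHom.mapMatrix φ : M2 A →+* M2 B) : M2 A →* M2 B).comp r

@[simp] lemma mapRep_apply (φ : A →+* B) (r : GQ →* M2 A) (σ : GQ) :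
    mapRep φ r σ = (r σ).map φ := rfl

lemma mapRep_apply_apply (φ : A →+* B) (r : GQ →* M2 A) (σ : GQ) (i j : Fin 2) :
    mapRep φ r σ i j = φ (r σ i j) := rfl

lemma mapRep_comp (ψ : B →+* C) (φ : A →+* B) (r : GQ →* M2 A) :
    mapRep (ψ.comp φ) r = mapRep ψ (mapRep φ r) := by
  ext σ i j; rfl

lemma mapRep_id (r : GQ →* M2 A) : mapRep (RingHom.id A) r = r := by
  ext σ i j; rfl

/-- Conjugacy of matrix valued homs. -/
def Conj (r r' : GQ →* M2 A) : Prop :=
  ∃ M : (M2 A)ˣ, ∀ σ, r' σ = (M : M2 A) * r σ * ((M⁻¹ : (M2 A)ˣ) : M2 A)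

lemma Conj.refl (r : GQ →* M2 A) : Conj r r := ⟨1, fun σ => by simp⟩

lemma Conj.symm {r r' : GQ →* M2 A} (h : Conj r r') : Conj r' r := by
  obtain ⟨M, hM⟩ := h
  refine ⟨M⁻¹, fun σ => ?_⟩
  rw [hM σ, inv_inv]
  simp [mul_assoc]

lemma Conj.trans {r r' r'' : GQ →* M2 A} (h : Conj r r') (h' : Conj r' r'') : Conj r r'' := by
  obtain ⟨M, hM⟩ := h
  obtain ⟨N, hN⟩ := h'
  refine ⟨N * M, fun σ => ?_⟩
  rw [hN σ, hM σ, mul_inv_rev]
  simp [mul_assoc]

lemma Conj.trace_eq {r r' : GQ →* M2 A} (h : Conj r r') (σ : GQ) :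
    (r' σ).trace = (r σ).trace := by
  obtain ⟨M, hM⟩ := h
  rw [hM σ, Matrix.trace_mul_cycle, Units.inv_mul, one_mul]

lemma Conj.mapRep {r r' : GQ →* M2 A} (h : Conj r r') (φ : A →+* B) :
    Conj (mapRep φ r) (mapRep φ r') := by
  obtain ⟨M, hM⟩ := h
  refine ⟨Units.map ((RingHom.mapMatrix φ : M2 A →+* M2 B) : M2 A →* M2 B) M, fun σ => ?_⟩
  rw [← map_inv]
  simp only [mapRep_apply, Units.coe_map, MonoidHom.coe_coe, RingHom.mapMatrix_apply]
  rw [hM σ, Matrix.map_mul, Matrix.map_mul]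

end Basic

section Local

variable {A : Type} [CommRing A] [IsLocalRing A]

/-- `m`-adic continuity of a matrix valued hom (matrix form of `GaloisActionIsAdicContinuous`). -/
def Cont (r : GQ →* M2 A) : Prop :=
  ∀ n : ℕ, ∃ L : IntermediateField ℚ (AlgebraicClosure ℚ), FiniteDimensional ℚ L ∧
    ∀ σ : GQ, (∀ x ∈ L, σ x = x) → ∀ i j, r σ i j - (1 : M2 A) i j ∈ maximalIdeal A ^ n

/-- Conjugacy by a matrix which is congruent to `1` modulo the maximal ideal. -/
def Conj1 (r r' : GQ →* M2 A) : Prop :=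
  ∃ M : (M2 A)ˣ, (∀ i j, (M : M2 A) i j - (1 : M2 A) i j ∈ maximalIdeal A) ∧
    ∀ σ, r' σ = (M : M2 A) * r σ * ((M⁻¹ : (M2 A)ˣ) : M2 A)

lemma Conj1.conj {r r' : GQ →* M2 A} (h : Conj1 r r') : Conj r r' := by
  obtain ⟨M, -, hM⟩ := h
  exact ⟨M, hM⟩

lemma mem_pow_smul_top_pi (n : ℕ) (v : Fin 2 → A) (hv : ∀ i, v i ∈ maximalIdeal A ^ n) :
    v ∈ (maximalIdeal A ^ n) • (⊤ : Submodule A (Fin 2 → A)) := by
  have : v = ∑ i, v i • (Pi.single i (1 : A) : Fin 2 → A) := by
    ext j
    simp [Finset.sum_apply, Pi.single_apply]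
  rw [this]
  exact Submodule.sum_mem _ fun i _ => Submodule.smul_mem_smul (hv i) Submodule.mem_top

/-- Matrices acting on column vectors, as a monoid hom. -/
def matToEnd (A : Type) [CommRing A] : M2 A →* Module.End A (Fin 2 → A) :=
  MonoidHomClass.toMonoidHom (Matrix.toLinAlgEquiv' : M2 A ≃ₐ[A] Module.End A (Fin 2 → A))

omit [IsLocalRing A] in
lemma matToEnd_apply (M : M2 A) (v : Fin 2 → A) : matToEnd A M v = M.mulVec v := rfl

/-- The `GaloisRepAdic` attached to a continuous matrix valued hom. -/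
def toAdic (r : GQ →* M2 A) (hr : Cont r) : GaloisRepAdic A where
  V := Fin 2 → A
  finrank_eq := by simp
  ρ := (matToEnd A).comp r
  isAdicContinuous := by
    intro n
    obtain ⟨L, hL, h⟩ := hr n
    refine ⟨L, hL, fun σ hσ v => ?_⟩
    apply mem_pow_smul_top_pi
    intro i
    have : (((matToEnd A).comp r) σ v - v) i = ∑ j, (r σ i j - (1 : M2 A) i j) * v j := by
      rw [Pi.sub_apply, MonoidHom.comp_apply, matToEnd_apply]
      simp only [Matrix.mulVec, dotProduct, sub_mul, Finset.sum_sub_distrib]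
      congr 1
      simp [Matrix.one_apply]
    rw [this]
    exact Ideal.sum_mem _ fun j _ => Ideal.mul_mem_right _ _ (h σ hσ i j)

@[simp] lemma toAdic_V (r : GQ →* M2 A) (hr : Cont r) : (toAdic r hr).V = (Fin 2 → A) := rfl

lemma toAdic_ρ_apply (r : GQ →* M2 A) (hr : Cont r) (σ : GQ) (v : Fin 2 → A) :
    (toAdic r hr).ρ σ v = (r σ).mulVec v := rfl

end Local

section Lift

variable (𝒪 : Type) [CommRing 𝒪] [IsLocalRing 𝒪]

/-- `r` reduces to `rbar` modulo the maximal ideal (instance free formulation: every entry of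
`r σ` is congruent to the image of a lift to `𝒪` of the corresponding entry of `rbar σ`). -/
def IsLift (rbar : GQ →* M2 (ResidueField 𝒪)) {A : Type} [CommRing A] [IsLocalRing A] [Algebra 𝒪 A]
    (r : GQ →* M2 A) : Prop :=
  ∀ σ i j, ∃ o : 𝒪, residue 𝒪 o = rbar σ i j ∧ r σ i j - algebraMap 𝒪 A o ∈ maximalIdeal A

/-- The `𝒪`-algebra structure on the dual numbers used in `GaloisRep.TangentFinite`
(verbatim the same term). -/
@[reducible] def dualNumberAlgebra : Algebra 𝒪 (DualNumber (ResidueField 𝒪)) :=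
  ((algebraMap (ResidueField 𝒪) (DualNumber (ResidueField 𝒪))).comp
    (algebraMap 𝒪 (ResidueField 𝒪))).toAlgebra

end Lift

end

end Fermat.Agent.S53
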