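import Fermat.Agent.S53.DictAdic
import Fermat.Agent.S53.DictResidual
import Fermat.Agent.S53.TestAlgBasic

set_option autoImplicit false
set_option linter.style.haveILetI false
set_option linter.unusedSectionVars false

/-!
# S53 task I-problem: the matrix deformation problem attached to the hypotheses of S53
-/

namespace Fermat.Agent.S53

open IsLocalRing GaloisRep

noncomputable section

namespace DictProblemAux

section Basic

variable {A B : Type} [CommRing A] [IsLocalRing A] [CommRing B] [IsLocalRing B]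

lemma isEquiv_symm {ρ ρ' : GaloisRepAdic A} (h : ρ.IsEquiv ρ') : ρ'.IsEquiv ρ :=
  h.elim fun e => ⟨e.symm⟩

lemma isEquiv_trans {ρ ρ' ρ'' : GaloisRepAdic A} (h : ρ.IsEquiv ρ') (h' : ρ'.IsEquiv ρ'') :
    ρ.IsEquiv ρ'' :=
  h.elim fun e => h'.elim fun e' => ⟨e.trans e'⟩

lemma map_one_apply (φ : A →+* B) (i j : Fin 2) : φ ((1 : M2 A) i j) = (1 : M2 B) i j := by
  by_cases h : i = j
  · subst h; simp
  · simp [Matrix.one_apply_ne h]

/-- Continuity descends along injective ring homs between rings with nilpotent maximal ideal. -/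
lemma cont_of_mapRep_injective (hA : ∃ n, maximalIdeal A ^ n = ⊥)
    (hB : ∃ n, maximalIdeal B ^ n = ⊥) (φ : A →+* B) (hφ : Function.Injective φ)
    (r : GQ →* M2 A) (h : Cont (mapRep φ r)) : Cont r := by
  rw [cont_iff_of_nilpotent hA]
  obtain ⟨L, hL, hL'⟩ := (cont_iff_of_nilpotent hB _).mp h
  refine ⟨L, hL, fun σ hσ => ?_⟩
  have h1 := hL' σ hσ
  ext i j
  apply hφ
  have h2 := congrFun (congrFun h1 i) j
  rw [mapRep_apply_apply] at h2
  rw [h2, map_one_apply]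

/-- Continuity descends along a jointly injective pair of ring homs. -/
lemma cont_of_mapRep_jointly_injective {P : Type} [CommRing P] [IsLocalRing P]
    (hP : ∃ n, maximalIdeal P ^ n = ⊥) (hA : ∃ n, maximalIdeal A ^ n = ⊥)
    (hB : ∃ n, maximalIdeal B ^ n = ⊥) (pA : P →+* A) (pB : P →+* B)
    (hinj : Function.Injective (fun x => (pA x, pB x)))
    (r : GQ →* M2 P) (h1 : Cont (mapRep pA r)) (h2 : Cont (mapRep pB r)) : Cont r := by
  rw [cont_iff_of_nilpotent hP]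
  obtain ⟨L₁, hL₁, hL₁'⟩ := (cont_iff_of_nilpotent hA _).mp h1
  obtain ⟨L₂, hL₂, hL₂'⟩ := (cont_iff_of_nilpotent hB _).mp h2
  haveI := hL₁
  haveI := hL₂
  refine ⟨L₁ ⊔ L₂, IntermediateField.finiteDimensional_sup L₁ L₂, fun σ hσ => ?_⟩
  have e1 := hL₁' σ fun x hx => hσ x ((le_sup_left : L₁ ≤ L₁ ⊔ L₂) hx)
  have e2 := hL₂' σ fun x hx => hσ x ((le_sup_right : L₂ ≤ L₁ ⊔ L₂) hx)
  ext i j
  apply hinj
  have f1 := congrFun (congrFun e1 i) j
  have f2 := congrFun (congrFun e2 i) j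
  rw [mapRep_apply_apply] at f1 f2
  show (pA (r σ i j), pB (r σ i j)) = (pA ((1 : M2 P) i j), pB ((1 : M2 P) i j))
  rw [f1, f2, map_one_apply, map_one_apply]

end Basic

section Tangent

variable (𝒪 : Type) [CommRing 𝒪] [IsLocalRing 𝒪]
  (ρbar : ResidualGaloisRep (IsLocalRing.ResidueField 𝒪))
  (𝒟 : ∀ ⦃A : Type⦄ [CommRing A] [IsLocalRing A] [Algebra 𝒪 A], GaloisRepAdic A → Prop)

/-- The ring hom `k → ResidueField k[ε]` used in `GaloisRep.TangentFinite`. -/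
def iotaDual : ResidueField 𝒪 →+* ResidueField (DualNumber (ResidueField 𝒪)) :=
  (residue (DualNumber (ResidueField 𝒪))).comp
    (algebraMap (ResidueField 𝒪) (DualNumber (ResidueField 𝒪)))

/-- Tangent lifts, in the shape of `GaloisRep.TangentFinite`. -/
def TLift : Type 1 :=
  {ρ : GaloisRepAdic (DualNumber (ResidueField 𝒪)) //
    @𝒟 (DualNumber (ResidueField 𝒪)) _ _ (dualNumberAlgebra 𝒪) ρ ∧
      ρ.residual.IsEquiv (ρbar.baseChangeAlong (iotaDual 𝒪))}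

/-- Equivalence of tangent lifts. -/
def tSetoid : Setoid (TLift 𝒪 ρbar 𝒟) :=
  ⟨fun ρ ρ' => ρ.1.IsEquiv ρ'.1, ⟨fun ρ => ⟨GaloisRepAdic.Equiv.refl ρ.1⟩,
    fun ⟨e⟩ => ⟨e.symm⟩, fun ⟨e⟩ ⟨e'⟩ => ⟨e.trans e'⟩⟩⟩

lemma finite_quotient_tSetoid (hfin : GaloisRep.TangentFinite 𝒪 ρbar 𝒟) :
    Finite (Quotient (tSetoid 𝒪 ρbar 𝒟)) :=
  hfin

lemma residueField_map_dualNumber :
    letI := dualNumberAlgebra 𝒪
    haveI : IsLocalHom (algebraMap 𝒪 (DualNumber (ResidueField 𝒪))) :=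
      (isArtinianTestAlgebra_dualNumber 𝒪).isLocalHom
    ResidueField.map (algebraMap 𝒪 (DualNumber (ResidueField 𝒪))) = iotaDual 𝒪 := by
  letI := dualNumberAlgebra 𝒪
  haveI : IsLocalHom (algebraMap 𝒪 (DualNumber (ResidueField 𝒪))) :=
    (isArtinianTestAlgebra_dualNumber 𝒪).isLocalHom
  ext x
  obtain ⟨a, rfl⟩ := residue_surjective x
  rfl

/-- An exact lift to the dual numbers has the right residual representation. -/
lemma residual_isEquiv_of_isLift (r : GQ →* M2 (DualNumber (ResidueField 𝒪))) (hc : Cont r)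
    (hlift : @IsLift 𝒪 _ _ (rbarOf ρbar) (DualNumber (ResidueField 𝒪)) _ _
      (dualNumberAlgebra 𝒪) r) :
    (toAdic r hc).residual.IsEquiv (ρbar.baseChangeAlong (iotaDual 𝒪)) := by
  letI := dualNumberAlgebra 𝒪
  haveI : IsLocalHom (algebraMap 𝒪 (DualNumber (ResidueField 𝒪))) :=
    (isArtinianTestAlgebra_dualNumber 𝒪).isLocalHom
  rw [residual_toAdic_isEquiv_iff]
  refine ⟨1, fun σ => ?_⟩
  have h := (isLift_iff 𝒪 (rbarOf ρbar) r).mp hlift σ
  rw [residueField_map_dualNumber] at h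
  rw [h]
  simp

/-- The finite set of matrix tangent vectors. -/
lemma exists_tangent_finset (hfin : GaloisRep.TangentFinite 𝒪 ρbar 𝒟) :
    ∃ S : Finset (GQ →* M2 (DualNumber (ResidueField 𝒪))),
      ∀ r : GQ →* M2 (DualNumber (ResidueField 𝒪)),
        (∃ hr : Cont r, @𝒟 (DualNumber (ResidueField 𝒪)) _ _ (dualNumberAlgebra 𝒪)
          (toAdic r hr)) →
        @IsLift 𝒪 _ _ (rbarOf ρbar) (DualNumber (ResidueField 𝒪)) _ _ (dualNumberAlgebra 𝒪) r →
        ∃ s ∈ S, ∀ σ, (s σ).trace = (r σ).trace := by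
  classical
  haveI : Finite (Quotient (tSetoid 𝒪 ρbar 𝒟)) := finite_quotient_tSetoid 𝒪 ρbar 𝒟 hfin
  have hrep : ∀ q : Quotient (tSetoid 𝒪 ρbar 𝒟),
      ∃ (s : GQ →* M2 (DualNumber (ResidueField 𝒪))) (hs : Cont s),
        (q.out).1.IsEquiv (toAdic s hs) := fun q => exists_toAdic_isEquiv _
  choose s hs hs' using hrep
  refine ⟨(Set.finite_range s).toFinset, fun r hr hlift => ?_⟩
  obtain ⟨hc, hD⟩ := hr
  have hres := residual_isEquiv_of_isLift 𝒪 ρbar r hc hlift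
  let x : TLift 𝒪 ρbar 𝒟 := ⟨toAdic r hc, hD, hres⟩
  let q : Quotient (tSetoid 𝒪 ρbar 𝒟) := Quotient.mk _ x
  have hx : (q.out).1.IsEquiv x.1 := Quotient.exact (Quotient.out_eq q)
  refine ⟨s q, ?_, fun σ => ?_⟩
  · rw [Set.Finite.mem_toFinset]
    exact Set.mem_range_self q
  · have h1 : (toAdic (s q) (hs q)).IsEquiv (toAdic r hc) :=
      isEquiv_trans (isEquiv_symm (hs' q)) hx
    have h2 : Conj (s q) r := (toAdic_isEquiv_iff _ _ _ _).mp h1
    exact (h2.trace_eq σ).symm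

end Tangent

end DictProblemAux

open DictProblemAux

variable (𝒪 : Type) [CommRing 𝒪] [IsDomain 𝒪] [IsDiscreteValuationRing 𝒪]
  [IsAdicComplete (IsLocalRing.maximalIdeal 𝒪) 𝒪] [Finite (IsLocalRing.ResidueField 𝒪)]
  (ρbar : ResidualGaloisRep (IsLocalRing.ResidueField 𝒪))
  (𝒟 : ∀ ⦃A : Type⦄ [CommRing A] [IsLocalRing A] [Algebra 𝒪 A], GaloisRepAdic A → Prop)

/-- D7. The matrix deformation problem attached to the hypotheses of S53. -/
theorem exists_matrixDefProblem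
    (habs : ρbar.IsAbsolutelyIrreducible)
    (h𝒟 : GaloisRep.IsDeformationCondition 𝒪 𝒟)
    (hbar : 𝒟 (GaloisRepAdic.ofResidualGaloisRep ρbar))
    (hfin : GaloisRep.TangentFinite 𝒪 ρbar 𝒟) :
    ∃ P : MatrixDefProblem 𝒪, P.rbar = rbarOf ρbar ∧
      ∀ ⦃A : Type⦄ [CommRing A] [IsLocalRing A] [Algebra 𝒪 A] (r : GQ →* M2 A),
        P.Dm r ↔ ∃ hr : Cont r, 𝒟 (toAdic r hr) := by
  refine ⟨{
    rbar := rbarOf ρbar
    Dm := fun A _ _ _ r => ∃ hr : Cont r, 𝒟 (toAdic r hr)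
    span_top := span_range_rbarOf ρbar habs
    cont := fun A _ _ _ r h => h.1
    conj := ?conj
    map := ?map
    desc := ?desc
    fibre := ?fibre
    complete := ?complete
    bar := ?bar
    tangent := exists_tangent_finset 𝒪 ρbar 𝒟 hfin }, rfl, fun A _ _ _ r => Iff.rfl⟩
  case conj =>
    intro A _ _ _ hA r r' hc ⟨hr, hD⟩
    have hr' : Cont r' := hr.conj hc
    exact ⟨hr', h𝒟.of_isEquiv hA ((toAdic_isEquiv_iff r r' hr hr').mpr hc) hD⟩
  case map =>
    intro A B _ _ _ _ _ _ hA hB φ r ⟨hr, hD⟩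
    have hφ : IsLocalHom (φ : A →+* B) := isLocalHom_of_algHom 𝒪 hB.residue_surjective φ
    have hr' : Cont (mapRep (φ : A →+* B) r) := hr.mapRep _ hφ
    exact ⟨hr', h𝒟.of_isEquiv hB (baseChangeAlong_toAdic_isEquiv _ hφ r hr hr')
      (h𝒟.baseChangeAlong hA hB φ hφ hD)⟩
  case desc =>
    intro A B _ _ _ _ _ _ hA hB φ hinj r ⟨hr', hD⟩
    have hφ : IsLocalHom (φ : A →+* B) := isLocalHom_of_algHom 𝒪 hB.residue_surjective φ
    have hr : Cont r := cont_of_mapRep_injective (exists_maximalIdeal_pow_eq_bot 𝒪 hA)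
      (exists_maximalIdeal_pow_eq_bot 𝒪 hB) (φ : A →+* B) hinj r hr'
    refine ⟨hr, h𝒟.of_baseChangeAlong_injective hA hB φ hφ hinj ?_⟩
    exact h𝒟.of_isEquiv hB (isEquiv_symm (baseChangeAlong_toAdic_isEquiv _ hφ r hr hr')) hD
  case fibre =>
    intro A B C P _ _ _ _ _ _ _ _ _ _ _ _ hA hB hC hP f g pA pB hcomp hinj hsurj r
      ⟨hrA, hDA⟩ ⟨hrB, hDB⟩
    have hpA : IsLocalHom (pA : P →+* A) := isLocalHom_of_algHom 𝒪 hA.residue_surjective pA
    have hpB : IsLocalHom (pB : P →+* B) := isLocalHom_of_algHom 𝒪 hB.residue_surjective pB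
    have hr : Cont r := cont_of_mapRep_jointly_injective
      (exists_maximalIdeal_pow_eq_bot 𝒪 hP) (exists_maximalIdeal_pow_eq_bot 𝒪 hA)
      (exists_maximalIdeal_pow_eq_bot 𝒪 hB) (pA : P →+* A) (pB : P →+* B) hinj r hrA hrB
    refine ⟨hr, h𝒟.of_fibreProduct hA hB hC hP f g pA pB hpA hpB hcomp hinj hsurj ?_ ?_⟩
    · exact h𝒟.of_isEquiv hA (isEquiv_symm (baseChangeAlong_toAdic_isEquiv _ hpA r hr hrA)) hDA
    · exact h𝒟.of_isEquiv hB (isEquiv_symm (baseChangeAlong_toAdic_isEquiv _ hpB r hr hrB)) hDB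
  case complete =>
    intro A _ _ _ _ _ hloc hsurj r
    constructor
    · rintro ⟨hr, hD⟩
      refine ⟨hr, fun B _ _ _ hB q hq => ?_⟩
      have hq' : IsLocalHom (q : A →+* B) := isLocalHom_of_algHom 𝒪 hB.residue_surjective q
      have hr' : Cont (mapRep (q : A →+* B) r) := hr.mapRep _ hq'
      exact ⟨hr', h𝒟.of_isEquiv hB (baseChangeAlong_toAdic_isEquiv _ hq' r hr hr')
        ((h𝒟.iff_forall_surjective hloc hsurj (toAdic r hr)).mp hD hB q hq' hq)⟩
    · rintro ⟨hr, hall⟩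
      refine ⟨hr, (h𝒟.iff_forall_surjective hloc hsurj (toAdic r hr)).mpr ?_⟩
      intro B _ _ _ hB q hq' hq
      obtain ⟨hr', hD'⟩ := hall hB q hq
      exact h𝒟.of_isEquiv hB (isEquiv_symm (baseChangeAlong_toAdic_isEquiv _ hq' r hr hr')) hD'
  case bar =>
    exact ⟨cont_rbarOf ρbar, h𝒟.of_isEquiv (isArtinianTestAlgebra_residueField 𝒪)
      (ofResidualGaloisRep_isEquiv_toAdic ρbar) hbar⟩

end

end Fermat.Agent.S53
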