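import Fermat.Agent.S53.DictAdic
import Fermat.Agent.S53.DictResidual
import Fermat.Agent.S53.DictProblem
import Fermat.Agent.S53.DictData

/-! # S53: aggregator for the dictionary tasks (I) -/
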