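import Fermat.Agent.S53.Problem
import Fermat.Agent.S53_helper35.MatDict
import Fermat.Agent.S53_helper35.MatDict2

set_option autoImplicit false
set_option linter.unusedSectionVars false

/-!
# S53 task I-adic: dictionary between `GaloisRepAdic` and matrix valued homs
-/

namespace Fermat.Agent.S53

open IsLocalRing GaloisRep

noncomputable section

variable {A B : Type} [CommRing A] [IsLocalRing A] [CommRing B] [IsLocalRing B]

/-- `Cont` is (definitionally) the `MatCont` of the matrix dictionary. -/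
theorem cont_iff_matCont (r : GQ →* M2 A) : Cont r ↔ S53_helper35.MatCont r := Iff.rfl

/-- `mapRep` is the `mapMat` of the matrix dictionary. -/
theorem mapRep_eq_mapMat (φ : A →+* B) (r : GQ →* M2 A) :
    mapRep φ r = S53_helper35.mapMat φ r := rfl

/-- `toAdic` is the `ofMat` of the matrix dictionary. -/
theorem toAdic_eq_ofMat (r : GQ →* M2 A) (hr : Cont r) :
    toAdic r hr = S53_helper35.ofMat r ((cont_iff_matCont r).mp hr) := rfl

/-- `Conj` in the commutation form used by the matrix dictionary. -/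
theorem conj_iff_exists_gl (r r' : GQ →* M2 A) :
    Conj r r' ↔ ∃ P : GL (Fin 2) A, ∀ σ, (P : M2 A) * r σ = r' σ * (P : M2 A) := by
  constructor
  · rintro ⟨M, hM⟩
    refine ⟨M, fun σ => ?_⟩
    rw [hM σ, mul_assoc, Units.inv_mul, mul_one]
  · rintro ⟨P, hP⟩
    refine ⟨P, fun σ => ?_⟩
    rw [hP σ, mul_assoc, Units.mul_inv, mul_one]

/-- D3a. -/
theorem Cont.mapRep {r : GQ →* M2 A} (hr : Cont r) (φ : A →+* B) (hφ : IsLocalHom φ) :
    Cont (mapRep φ r) :=
  S53_helper35.matCont_mapMat φ hφ hr

/-- D4a. Continuity is invariant under conjugation. -/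
theorem Cont.conj {r r' : GQ →* M2 A} (hr : Cont r) (h : Conj r r') : Cont r' := by
  obtain ⟨M, hM⟩ := h
  have h1 : S53_helper35.MatCont (S53_helper35.conjMat M r) := S53_helper35.matCont_conjMat M hr
  have h2 : S53_helper35.conjMat M r = r' := by
    refine MonoidHom.ext fun σ => ?_
    rw [S53_helper35.conjMat_apply, hM σ]
  rw [h2] at h1
  exact h1

/-- D2. Every `GaloisRepAdic` has a matrix form. -/
theorem exists_toAdic_isEquiv (ρ : GaloisRepAdic A) :
    ∃ (r : GQ →* M2 A) (hr : Cont r), ρ.IsEquiv (toAdic r hr) := by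
  obtain ⟨r, hr, h⟩ := S53_helper35.exists_ofMat_isEquiv ρ
  exact ⟨r, hr, h⟩

/-- D3b. Base change corresponds to entrywise push forward. -/
theorem baseChangeAlong_toAdic_isEquiv (φ : A →+* B) (hφ : IsLocalHom φ) (r : GQ →* M2 A)
    (hr : Cont r) (hr' : Cont (mapRep φ r)) :
    ((toAdic r hr).baseChangeAlong φ hφ).IsEquiv (toAdic (mapRep φ r) hr') :=
  S53_helper35.baseChangeAlong_ofMat_isEquiv φ hφ r hr

/-- D4b. Equivalence corresponds to conjugacy. -/
theorem toAdic_isEquiv_iff (r r' : GQ →* M2 A) (hr : Cont r) (hr' : Cont r') :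
    (toAdic r hr).IsEquiv (toAdic r' hr') ↔ Conj r r' := by
  rw [conj_iff_exists_gl]
  exact S53_helper35.ofMat_isEquiv_iff hr hr'

/-- Invertible matrices over the residue field lift to invertible matrices. -/
theorem exists_units_map_residue (N : (M2 (ResidueField A))ˣ) :
    ∃ M : (M2 A)ˣ, (M : M2 A).map (residue A) = (N : M2 (ResidueField A)) :=
  S53_helper35.exists_gl_lift N

/-- D9. For a ring with nilpotent maximal ideal, continuity means: trivial on an open
subgroup. -/
theorem cont_iff_of_nilpotent (hnil : ∃ n, maximalIdeal A ^ n = ⊥) (r : GQ →* M2 A) :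
    Cont r ↔ ∃ L : IntermediateField ℚ (AlgebraicClosure ℚ), FiniteDimensional ℚ L ∧
      ∀ σ : GQ, (∀ x ∈ L, σ x = x) → r σ = 1 := by
  obtain ⟨n, hn⟩ := hnil
  exact S53_helper35.matCont_iff_of_pow_eq_bot hn

end

end Fermat.Agent.S53
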