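import Fermat.Agent.S53.Defs

set_option autoImplicit false

/-!
# S53: the deformation problem and its solution, in matrix form

`MatrixDefProblem 𝒪` is the input of the core theorem (produced from the hypotheses of S53 by the
dictionary), `UnivMatrixDef P` is its output (converted to `DeformationRingData` by the
dictionary).
-/

namespace Fermat.Agent.S53

open IsLocalRing GaloisRep

noncomputable section

/-- A deformation problem in matrix form. `Dm r` means "`r` is continuous and of type `𝒟`". -/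
structure MatrixDefProblem (𝒪 : Type) [CommRing 𝒪] [IsLocalRing 𝒪] where
  /-- the residual representation in matrix form -/
  rbar : GQ →* M2 (ResidueField 𝒪)
  /-- the deformation condition (including continuity) -/
  Dm : ∀ ⦃A : Type⦄ [CommRing A] [IsLocalRing A] [Algebra 𝒪 A], (GQ →* M2 A) → Prop
  /-- Burnside -/
  span_top : Submodule.span (ResidueField 𝒪) (Set.range rbar) = ⊤
  cont : ∀ ⦃A : Type⦄ [CommRing A] [IsLocalRing A] [Algebra 𝒪 A] (r : GQ →* M2 A),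
    Dm r → Cont r
  conj : ∀ ⦃A : Type⦄ [CommRing A] [IsLocalRing A] [Algebra 𝒪 A],
    IsArtinianTestAlgebra 𝒪 A → ∀ (r r' : GQ →* M2 A), Conj r r' → Dm r → Dm r'
  map : ∀ ⦃A B : Type⦄ [CommRing A] [IsLocalRing A] [Algebra 𝒪 A]
    [CommRing B] [IsLocalRing B] [Algebra 𝒪 B],
    IsArtinianTestAlgebra 𝒪 A → IsArtinianTestAlgebra 𝒪 B →
    ∀ (φ : A →ₐ[𝒪] B) (r : GQ →* M2 A), Dm r → Dm (mapRep (φ : A →+* B) r)
  desc : ∀ ⦃A B : Type⦄ [CommRing A] [IsLocalRing A] [Algebra 𝒪 A]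
    [CommRing B] [IsLocalRing B] [Algebra 𝒪 B],
    IsArtinianTestAlgebra 𝒪 A → IsArtinianTestAlgebra 𝒪 B →
    ∀ (φ : A →ₐ[𝒪] B), Function.Injective φ →
      ∀ (r : GQ →* M2 A), Dm (mapRep (φ : A →+* B) r) → Dm r
  fibre : ∀ ⦃A B C P : Type⦄ [CommRing A] [IsLocalRing A] [Algebra 𝒪 A]
    [CommRing B] [IsLocalRing B] [Algebra 𝒪 B] [CommRing C] [IsLocalRing C] [Algebra 𝒪 C]
    [CommRing P] [IsLocalRing P] [Algebra 𝒪 P],
    IsArtinianTestAlgebra 𝒪 A → IsArtinianTestAlgebra 𝒪 B → IsArtinianTestAlgebra 𝒪 C →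
    IsArtinianTestAlgebra 𝒪 P →
    ∀ (f : A →ₐ[𝒪] C) (g : B →ₐ[𝒪] C) (pA : P →ₐ[𝒪] A) (pB : P →ₐ[𝒪] B),
      f.comp pA = g.comp pB →
      Function.Injective (fun x => (pA x, pB x)) →
      (∀ a b, f a = g b → ∃ x, pA x = a ∧ pB x = b) →
      ∀ (r : GQ →* M2 P),
        Dm (mapRep (pA : P →+* A) r) → Dm (mapRep (pB : P →+* B) r) → Dm r
  complete : ∀ ⦃A : Type⦄ [CommRing A] [IsLocalRing A] [IsNoetherianRing A]
    [IsAdicComplete (maximalIdeal A) A] [Algebra 𝒪 A],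
    IsLocalHom (algebraMap 𝒪 A) → Function.Surjective (IsLocalRing.residue A ∘ algebraMap 𝒪 A) →
    ∀ (r : GQ →* M2 A),
      Dm r ↔ (Cont r ∧ ∀ ⦃B : Type⦄ [CommRing B] [IsLocalRing B] [Algebra 𝒪 B],
        IsArtinianTestAlgebra 𝒪 B → ∀ (q : A →ₐ[𝒪] B), Function.Surjective q →
          Dm (mapRep (q : A →+* B) r))
  bar : Dm rbar
  tangent : ∃ S : Finset (GQ →* M2 (DualNumber (ResidueField 𝒪))),
    ∀ r : GQ →* M2 (DualNumber (ResidueField 𝒪)),
      @Dm (DualNumber (ResidueField 𝒪)) _ _ (dualNumberAlgebra 𝒪) r →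
      @IsLift 𝒪 _ _ rbar (DualNumber (ResidueField 𝒪)) _ _ (dualNumberAlgebra 𝒪) r →
      ∃ s ∈ S, ∀ σ, (s σ).trace = (r σ).trace

/-- A universal deformation in matrix form. -/
structure UnivMatrixDef {𝒪 : Type} [CommRing 𝒪] [IsLocalRing 𝒪] (P : MatrixDefProblem 𝒪) :
    Type 1 where
  R : Type
  [instCommRing : CommRing R]
  [instIsLocalRing : IsLocalRing R]
  [instIsNoetherianRing : IsNoetherianRing R]
  [instIsAdicComplete : IsAdicComplete (IsLocalRing.maximalIdeal R) R]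
  [instAlgebra : Algebra 𝒪 R]
  [instIsLocalHom : IsLocalHom (algebraMap 𝒪 R)]
  residue_surjective : Function.Surjective (IsLocalRing.residue R ∘ algebraMap 𝒪 R)
  r : GQ →* M2 R
  dm : P.Dm r
  isLift : IsLift 𝒪 P.rbar r
  universal : ∀ (A : Type) [CommRing A] [IsLocalRing A] [IsNoetherianRing A]
      [IsAdicComplete (IsLocalRing.maximalIdeal A) A] [Algebra 𝒪 A] [IsLocalHom (algebraMap 𝒪 A)],
      Function.Surjective (IsLocalRing.residue A ∘ algebraMap 𝒪 A) →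
      ∀ rA : GQ →* M2 A, P.Dm rA → IsLift 𝒪 P.rbar rA →
        ∃! φ : R →ₐ[𝒪] A, Conj (mapRep (φ : R →+* A) r) rA

attribute [instance] UnivMatrixDef.instCommRing UnivMatrixDef.instIsLocalRing
  UnivMatrixDef.instIsNoetherianRing UnivMatrixDef.instIsAdicComplete
  UnivMatrixDef.instAlgebra UnivMatrixDef.instIsLocalHom

end

end Fermat.Agent.S53
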